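/-
S21 helper library (task X2): the number of orbits of an element acting with order dividing
`2` or `3` on a finite set, via Burnside's lemma for the cyclic group `ZMod n`.
-/
import Mathlib

set_option autoImplicit false

namespace Fermat.Agent.S21

open MulAction

section

variable {G X : Type*} [Group G] [MulAction G X]

/-- The action of the cyclic group `Multiplicative (ZMod n)` on `X` through the powers of `g`,
when `g ^ n` acts trivially. -/
noncomputable def burnsideCycHom (n : ℕ) (g : G) (h : ∀ x : X, g ^ n • x = x) :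
    Multiplicative (ZMod n) →* Equiv.Perm X :=
  AddMonoidHom.toMultiplicativeLeft (ZMod.lift n
    ⟨zmultiplesHom (Additive (Equiv.Perm X)) (Additive.ofMul (MulAction.toPermHom G X g)), by
      rw [zmultiplesHom_apply, natCast_zsmul, ← ofMul_pow, ← map_pow]
      have h1 : MulAction.toPermHom G X (g ^ n) = 1 := by
        ext x
        exact h x
      rw [h1]
      rfl⟩)

theorem burnsideCycHom_intCast (n : ℕ) (g : G) (h : ∀ x : X, g ^ n • x = x) (k : ℤ) (x : X) :
    burnsideCycHom n g h (Multiplicative.ofAdd (k : ZMod n)) x = g ^ k • x := by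
  have h1 : burnsideCycHom n g h (Multiplicative.ofAdd (k : ZMod n))
      = MulAction.toPermHom G X (g ^ k) := by
    rw [map_zpow]
    show Additive.toMul (ZMod.lift n _ (k : ZMod n)) = _
    rw [ZMod.lift_coe]
    rfl
  rw [h1]
  rfl

/-- Burnside's lemma in `Nat.card` form. -/
theorem burnside_natCard (H Y : Type*) [Group H] [MulAction H Y] [Fintype H] [Finite Y] :
    ∑ a : H, Nat.card (fixedBy Y a) = Nat.card (orbitRel.Quotient H Y) * Nat.card H := by
  classical
  have := Fintype.ofFinite Y
  have : Fintype (Quotient (orbitRel H Y)) := Fintype.ofFinite _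
  have := MulAction.sum_card_fixedBy_eq_card_orbits_mul_card_group H Y
  simpa only [Nat.card_eq_fintype_card] using this

/-- Burnside's lemma for an element `g` such that `g ^ n` acts trivially. -/
theorem sum_card_fixedBy_pow (n : ℕ) [NeZero n] [Finite X] (g : G)
    (h : ∀ x : X, g ^ n • x = x) :
    ∑ k ∈ Finset.range n, Nat.card (fixedBy X (g ^ k)) =
      Nat.card (orbitRel.Quotient (Subgroup.zpowers g) X) * n := by
  classical
  let act : MulAction (Multiplicative (ZMod n)) X := MulAction.compHom X (burnsideCycHom n g h)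
  have hsmul : ∀ (k : ℤ) (x : X), (Multiplicative.ofAdd (k : ZMod n)) • x = g ^ k • x :=
    fun k x => burnsideCycHom_intCast n g h k x
  have hB := burnside_natCard (Multiplicative (ZMod n)) X
  have hΩ : Nat.card (orbitRel.Quotient (Multiplicative (ZMod n)) X)
      = Nat.card (orbitRel.Quotient (Subgroup.zpowers g) X) := by
    refine Nat.card_congr (Quotient.congrRight fun x y => ?_)
    show x ∈ orbit (Multiplicative (ZMod n)) y ↔ x ∈ orbit (Subgroup.zpowers g) y
    constructor
    · rintro ⟨a, rfl⟩
      obtain ⟨k, hk⟩ := ZMod.intCast_surjective (Multiplicative.toAdd a)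
      have ha : a = Multiplicative.ofAdd (k : ZMod n) := by rw [hk]; rfl
      refine ⟨⟨g ^ k, Subgroup.zpow_mem_zpowers g k⟩, ?_⟩
      show g ^ k • y = a • y
      rw [ha, hsmul]
    · rintro ⟨⟨_, k, rfl⟩, rfl⟩
      exact ⟨Multiplicative.ofAdd (k : ZMod n), hsmul k y⟩
  have hsum : ∑ k ∈ Finset.range n, Nat.card (fixedBy X (g ^ k))
      = ∑ a : Multiplicative (ZMod n), Nat.card (fixedBy X a) := by
    refine Finset.sum_bij (fun k _ => Multiplicative.ofAdd (k : ZMod n)) (fun _ _ => Finset.mem_univ _)
      ?_ ?_ ?_
    · intro k₁ hk₁ k₂ hk₂ h12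
      have h12' : (k₁ : ZMod n) = (k₂ : ZMod n) := Multiplicative.ofAdd.injective h12
      rw [ZMod.natCast_eq_natCast_iff] at h12'
      exact Nat.ModEq.eq_of_lt_of_lt h12' (Finset.mem_range.mp hk₁) (Finset.mem_range.mp hk₂)
    · intro a _
      refine ⟨(Multiplicative.toAdd a).val, Finset.mem_range.mpr (ZMod.val_lt _), ?_⟩
      rw [ZMod.natCast_zmod_val]
      rfl
    · intro k _
      have hset : fixedBy X (g ^ k) = fixedBy X (Multiplicative.ofAdd (k : ZMod n)) := by
        ext x
        have := hsmul (k : ℤ) x
        rw [Int.cast_natCast, zpow_natCast] at this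
        rw [mem_fixedBy, mem_fixedBy, this]
      rw [hset]
  have hcard : Nat.card (Multiplicative (ZMod n)) = n := by
    rw [Nat.card_eq_fintype_card, Fintype.card_multiplicative, ZMod.card]
  rw [hsum, hB, hΩ, hcard]

theorem burnside_card_fixedBy_one [Finite X] : Nat.card (fixedBy X (1 : G)) = Nat.card X := by
  rw [fixedBy_one_eq_univ]
  exact Nat.card_congr (Equiv.Set.univ X)

end

theorem two_mul_card_orbits {G X : Type*} [Group G] [MulAction G X] [Finite X] (g : G)
    (h : ∀ x : X, (g * g) • x = x) :
    2 * Nat.card (MulAction.orbitRel.Quotient (Subgroup.zpowers g) X) =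
      Nat.card X + Nat.card (MulAction.fixedBy X g) := by
  have h' : ∀ x : X, g ^ 2 • x = x := fun x => by rw [pow_two]; exact h x
  have key := sum_card_fixedBy_pow 2 g h'
  rw [Finset.sum_range_succ, Finset.sum_range_one, pow_zero, pow_one,
    burnside_card_fixedBy_one] at key
  omega

theorem three_mul_card_orbits {G X : Type*} [Group G] [MulAction G X] [Finite X] (g : G)
    (h : ∀ x : X, (g * g * g) • x = x) :
    3 * Nat.card (MulAction.orbitRel.Quotient (Subgroup.zpowers g) X) =
      Nat.card X + 2 * Nat.card (MulAction.fixedBy X g) := by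
  have h' : ∀ x : X, g ^ 3 • x = x := fun x => by rw [pow_succ, pow_two]; exact h x
  have key := sum_card_fixedBy_pow 3 g h'
  have hset : fixedBy X (g ^ 2) = fixedBy X g := by
    ext x
    rw [mem_fixedBy, mem_fixedBy]
    constructor
    · intro hx
      have h3 := h x
      rw [mul_smul, mul_smul] at h3
      have h2 : g • g • x = x := by rw [← mul_smul, ← pow_two]; exact hx
      rw [h2] at h3
      exact h3
    · intro hx
      rw [pow_two, mul_smul, hx, hx]
  rw [Finset.sum_range_succ, Finset.sum_range_succ, Finset.sum_range_one, pow_zero, pow_one,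
    burnside_card_fixedBy_one, hset] at key
  omega

end Fermat.Agent.S21
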