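import Mathlib

/-!
# Invariant functions on a finite `G`-set

The space of complex functions on a finite `G`-set `X` that are invariant under a single element
`g : G` has dimension the number of orbits of the cyclic group generated by `g`.
-/

namespace Fermat.Agent.S21

/-- A function invariant under `g` is invariant under every integer power of `g`. -/
theorem orbitInv_apply_zpow_smul {G X Y : Type*} [Group G] [MulAction G X] (g : G)
    (v : X → Y) (hv : ∀ x, v (g • x) = v x) (n : ℤ) (x : X) : v (g ^ n • x) = v x := by
  induction n using Int.induction_on generalizing x with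
  | zero => simp
  | succ n ih => rw [zpow_add_one, mul_smul, ih, hv]
  | pred n ih =>
    rw [zpow_sub_one, mul_smul, ih]
    have h := hv (g⁻¹ • x)
    rw [smul_inv_smul] at h
    exact h.symm

/-- The dimension of the space of `g`-invariant complex functions on a finite `G`-set is the number
of orbits of the cyclic subgroup generated by `g`. -/
theorem finrank_invariants_eq_card_orbits {G X : Type*} [Group G] [MulAction G X] [Finite X]
    (g : G) :
    Module.finrank ℂ
        (LinearMap.ker (LinearMap.funLeft ℂ ℂ (fun x : X => g • x) - LinearMap.id)) =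
      Nat.card (MulAction.orbitRel.Quotient (Subgroup.zpowers g) X) := by
  classical
  have : Fintype (MulAction.orbitRel.Quotient (Subgroup.zpowers g) X) := Fintype.ofFinite _
  let Φ : (MulAction.orbitRel.Quotient (Subgroup.zpowers g) X → ℂ) →ₗ[ℂ] (X → ℂ) :=
    LinearMap.funLeft ℂ ℂ
      (Quotient.mk'' : X → MulAction.orbitRel.Quotient (Subgroup.zpowers g) X)
  have hΦinj : Function.Injective Φ :=
    LinearMap.funLeft_injective_of_surjective ℂ ℂ _ Quotient.mk''_surjective
  have hrange : LinearMap.range Φ =
      LinearMap.ker (LinearMap.funLeft ℂ ℂ (fun x : X => g • x) - LinearMap.id) := by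
    ext v
    simp only [LinearMap.mem_range, LinearMap.mem_ker, LinearMap.sub_apply, LinearMap.id_apply,
      sub_eq_zero]
    constructor
    · rintro ⟨w, rfl⟩
      funext x
      show w (Quotient.mk'' (g • x)) = w (Quotient.mk'' x)
      congr 1
      refine Quotient.sound' ?_
      exact ⟨⟨g, Subgroup.mem_zpowers g⟩, rfl⟩
    · intro hv
      have hv' : ∀ x, v (g • x) = v x := fun x => congrFun hv x
      refine ⟨Quotient.lift v ?_, ?_⟩
      · rintro a b ⟨⟨h, hh⟩, rfl⟩
        obtain ⟨n, rfl⟩ := Subgroup.mem_zpowers_iff.mp hh
        exact orbitInv_apply_zpow_smul g v hv' n b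
      · funext x
        rfl
  rw [← hrange, LinearMap.finrank_range_of_inj hΦinj, Module.finrank_fintype_fun_eq_card,
    Nat.card_eq_fintype_card]

end Fermat.Agent.S21
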