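import Mathlib
import Fermat.Prelude.Def_ModularCurve_PeriodMap

set_option autoImplicit false

open scoped MatrixGroups
open ModularCurve.Period ModularGroup

namespace Fermat.Agent.S21.ParabolicBound

noncomputable section

variable (Γ : Subgroup SL(2, ℤ))

theorem kap_mem (g : SL(2, ℤ)) (x : SL(2, ℤ) ⧸ Γ) :
    (Quotient.out (g • x))⁻¹ * g * Quotient.out x ∈ Γ := by
  rw [mul_assoc, ← QuotientGroup.eq, QuotientGroup.out_eq']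
  conv_lhs => rw [← QuotientGroup.out_eq' x]
  rfl

/-- The "Shapiro" cocycle with values in `Γ`. -/
def kap (g : SL(2, ℤ)) (x : SL(2, ℤ) ⧸ Γ) : Γ :=
  ⟨(Quotient.out (g • x))⁻¹ * g * Quotient.out x, kap_mem Γ g x⟩

theorem kap_mul (g h : SL(2, ℤ)) (x : SL(2, ℤ) ⧸ Γ) :
    kap Γ (g * h) x = kap Γ g (h • x) * kap Γ h x := by
  apply Subtype.ext
  simp only [kap, Subgroup.coe_mul, mul_smul]
  group

theorem kap_one (x : SL(2, ℤ) ⧸ Γ) : kap Γ 1 x = 1 := by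
  apply Subtype.ext
  simp [kap]

/-- if `g` fixes `x`, then `kap g x` is a conjugate of `g`. -/
theorem kap_of_smul_eq {g : SL(2, ℤ)} {x : SL(2, ℤ) ⧸ Γ} (h : g • x = x) :
    (kap Γ g x : SL(2, ℤ)) = (Quotient.out x)⁻¹ * g * Quotient.out x := by
  simp only [kap]
  rw [h]

variable {Γ}

/-- The crossed map attached to a homomorphism `φ : Γ → ℂ`. -/
def cph (φ : Additive Γ →+ ℂ) (g : SL(2, ℤ)) (x : SL(2, ℤ) ⧸ Γ) : ℂ :=
  φ (Additive.ofMul (kap Γ g x))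

theorem cph_mul (φ : Additive Γ →+ ℂ) (g h : SL(2, ℤ)) (x : SL(2, ℤ) ⧸ Γ) :
    cph φ (g * h) x = cph φ g (h • x) + cph φ h x := by
  unfold cph
  rw [kap_mul, ofMul_mul, map_add]

theorem cph_one (φ : Additive Γ →+ ℂ) (x : SL(2, ℤ) ⧸ Γ) : cph φ 1 x = 0 := by
  unfold cph
  rw [kap_one, ofMul_one, map_zero]

theorem cph_inv (φ : Additive Γ →+ ℂ) (g : SL(2, ℤ)) (x : SL(2, ℤ) ⧸ Γ) :
    cph φ g⁻¹ x = - cph φ g (g⁻¹ • x) := by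
  have h := cph_mul φ g g⁻¹ x
  rw [mul_inv_cancel, cph_one] at h
  linear_combination -h

theorem trace_conj (a g : SL(2, ℤ)) :
    ((a⁻¹ * g * a : SL(2, ℤ)) : Matrix (Fin 2) (Fin 2) ℤ).trace
      = (g : Matrix (Fin 2) (Fin 2) ℤ).trace := by
  rw [Matrix.SpecialLinearGroup.coe_mul, Matrix.trace_mul_comm, ← Matrix.SpecialLinearGroup.coe_mul,
    mul_inv_cancel_left]

theorem cph_eq_zero_of_fixed {φ : Additive Γ →+ ℂ} (hφ : IsParabolicHom Γ φ)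
    {g : SL(2, ℤ)} {x : SL(2, ℤ) ⧸ Γ} (hx : g • x = x)
    (htr : (g : Matrix (Fin 2) (Fin 2) ℤ).trace ^ 2 = 4) : cph φ g x = 0 := by
  unfold cph
  apply hφ
  rw [kap_of_smul_eq Γ hx, trace_conj]
  exact htr

theorem neg_one_smul_coset (hneg : (-1 : SL(2, ℤ)) ∈ Γ) (x : SL(2, ℤ) ⧸ Γ) :
    (-1 : SL(2, ℤ)) • x = x := by
  induction x using QuotientGroup.induction_on with
  | H a =>
    show ((-1 * a : SL(2, ℤ)) : SL(2, ℤ) ⧸ Γ) = a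
    rw [QuotientGroup.eq]
    have : (-1 * a)⁻¹ * a = (-1 : SL(2, ℤ)) := by
      rw [neg_mul, one_mul, ← neg_inv, neg_mul, inv_mul_cancel]
    rw [this]
    exact hneg

theorem S_mul_S : (S * S : SL(2, ℤ)) = -1 := by decide

theorem ST_cube : ((S * T) * (S * T) * (S * T) : SL(2, ℤ)) = -1 := by decide

theorem trace_neg_one_sq : ((-1 : SL(2, ℤ)) : Matrix (Fin 2) (Fin 2) ℤ).trace ^ 2 = 4 := by
  decide

theorem cph_neg_one {φ : Additive Γ →+ ℂ} (hφ : IsParabolicHom Γ φ)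
    (hneg : (-1 : SL(2, ℤ)) ∈ Γ) (x : SL(2, ℤ) ⧸ Γ) : cph φ (-1) x = 0 :=
  cph_eq_zero_of_fixed hφ (neg_one_smul_coset hneg x) trace_neg_one_sq


/-! ### Linear algebra on functions on the coset space -/

section general

variable {V : Type*} [AddCommGroup V] [Module ℂ V] [FiniteDimensional ℂ V]

theorem finrank_involution (τ : V →ₗ[ℂ] V) (h : τ ∘ₗ τ = LinearMap.id) :
    Module.finrank ℂ (LinearMap.ker (τ + LinearMap.id))
      + Module.finrank ℂ (LinearMap.ker (τ - LinearMap.id)) = Module.finrank ℂ V := by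
  have hr : LinearMap.range (τ + LinearMap.id) = LinearMap.ker (τ - LinearMap.id) := by
    ext y
    simp only [LinearMap.mem_range, LinearMap.mem_ker, LinearMap.add_apply, LinearMap.sub_apply,
      LinearMap.id_apply]
    constructor
    · rintro ⟨x, rfl⟩
      have h2 := LinearMap.congr_fun h x
      simp only [LinearMap.comp_apply, LinearMap.id_apply] at h2
      rw [map_add, h2]; abel
    · intro hy
      refine ⟨(1 / 2 : ℂ) • y, ?_⟩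
      rw [map_smul, sub_eq_zero.mp hy, ← add_smul]; norm_num
  rw [← hr, add_comm]
  exact LinearMap.finrank_range_add_finrank_ker _

theorem finrank_order_three (σ : V →ₗ[ℂ] V) (h : σ ∘ₗ σ ∘ₗ σ = LinearMap.id) :
    Module.finrank ℂ (LinearMap.ker (σ ∘ₗ σ + σ + LinearMap.id))
      + Module.finrank ℂ (LinearMap.ker (σ - LinearMap.id)) = Module.finrank ℂ V := by
  have hr : LinearMap.range (σ ∘ₗ σ + σ + LinearMap.id) = LinearMap.ker (σ - LinearMap.id) := by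
    ext y
    simp only [LinearMap.mem_range, LinearMap.mem_ker, LinearMap.add_apply, LinearMap.sub_apply,
      LinearMap.id_apply, LinearMap.comp_apply]
    constructor
    · rintro ⟨x, rfl⟩
      have h2 := LinearMap.congr_fun h x
      simp only [LinearMap.comp_apply, LinearMap.id_apply] at h2
      rw [map_add, map_add, h2]; abel
    · intro hy
      have hy' : σ y = y := sub_eq_zero.mp hy
      refine ⟨(1 / 3 : ℂ) • y, ?_⟩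
      rw [map_smul, map_smul, hy', hy', ← add_smul, ← add_smul]; norm_num
  rw [← hr, add_comm]
  exact LinearMap.finrank_range_add_finrank_ker _

end general

variable (Γ)

/-- pull-back of functions on cosets -/
def P (g : SL(2, ℤ)) : ((SL(2, ℤ) ⧸ Γ) → ℂ) →ₗ[ℂ] ((SL(2, ℤ) ⧸ Γ) → ℂ) :=
  LinearMap.funLeft ℂ ℂ (fun x => g • x)

@[simp] theorem P_apply (g : SL(2, ℤ)) (v : (SL(2, ℤ) ⧸ Γ) → ℂ) (x : SL(2, ℤ) ⧸ Γ) :
    P Γ g v x = v (g • x) := rfl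

theorem P_mul (g h : SL(2, ℤ)) : P Γ (g * h) = P Γ h ∘ₗ P Γ g := by
  ext v x
  simp [mul_smul]

theorem P_eq_id {g : SL(2, ℤ)} (hg : ∀ x : SL(2, ℤ) ⧸ Γ, g • x = x) : P Γ g = LinearMap.id := by
  ext v x
  simp [hg]

/-- invariant functions -/
def Inv (g : SL(2, ℤ)) : Submodule ℂ ((SL(2, ℤ) ⧸ Γ) → ℂ) :=
  LinearMap.ker (P Γ g - LinearMap.id)

theorem mem_Inv {g : SL(2, ℤ)} {v : (SL(2, ℤ) ⧸ Γ) → ℂ} :
    v ∈ Inv Γ g ↔ ∀ x, v (g • x) = v x := by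
  simp [Inv, LinearMap.mem_ker, funext_iff, sub_eq_zero]

/-- anti-invariants of `S` -/
def Asub : Submodule ℂ ((SL(2, ℤ) ⧸ Γ) → ℂ) := LinearMap.ker (P Γ S + LinearMap.id)

theorem mem_Asub {a : (SL(2, ℤ) ⧸ Γ) → ℂ} : a ∈ Asub Γ ↔ ∀ x, a (S • x) + a x = 0 := by
  simp [Asub, LinearMap.mem_ker, funext_iff]

/-- norm-zero elements for `S * T` -/
def Bsub : Submodule ℂ ((SL(2, ℤ) ⧸ Γ) → ℂ) :=
  LinearMap.ker (P Γ (S * T) ∘ₗ P Γ (S * T) + P Γ (S * T) + LinearMap.id)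

theorem mem_Bsub {b : (SL(2, ℤ) ⧸ Γ) → ℂ} :
    b ∈ Bsub Γ ↔ ∀ x, b ((S * T) • (S * T) • x) + b ((S * T) • x) + b x = 0 := by
  simp [Bsub, LinearMap.mem_ker, funext_iff]

variable [Finite (SL(2, ℤ) ⧸ Γ)]

theorem finrank_Asub_add (hneg : (-1 : SL(2, ℤ)) ∈ Γ) :
    Module.finrank ℂ (Asub Γ) + Module.finrank ℂ (Inv Γ S) = Nat.card (SL(2, ℤ) ⧸ Γ) := by
  have h := finrank_involution (P Γ S) (by
    rw [← P_mul, S_mul_S]; exact P_eq_id Γ (neg_one_smul_coset hneg))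
  have := Fintype.ofFinite (SL(2, ℤ) ⧸ Γ)
  rw [Module.finrank_fintype_fun_eq_card, ← Nat.card_eq_fintype_card] at h
  exact h


theorem finrank_Bsub_add (hneg : (-1 : SL(2, ℤ)) ∈ Γ) :
    Module.finrank ℂ (Bsub Γ) + Module.finrank ℂ (Inv Γ (S * T))
      = Nat.card (SL(2, ℤ) ⧸ Γ) := by
  have h := finrank_order_three (P Γ (S * T)) (by
    rw [← P_mul, ← P_mul, ST_cube]; exact P_eq_id Γ (neg_one_smul_coset hneg))
  have := Fintype.ofFinite (SL(2, ℤ) ⧸ Γ)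
  rw [Module.finrank_fintype_fun_eq_card, ← Nat.card_eq_fintype_card] at h
  exact h

omit [Finite (SL(2, ℤ) ⧸ Γ)] in
/-- invariance under `S` and `T` implies invariance under everything -/
theorem invariant_of_S_T {ψ : (SL(2, ℤ) ⧸ Γ) → ℂ} (hS : ∀ x, ψ (S • x) = ψ x)
    (hT : ∀ x, ψ (T • x) = ψ x) (g : SL(2, ℤ)) (x : SL(2, ℤ) ⧸ Γ) : ψ (g • x) = ψ x := by
  have hg : g ∈ Subgroup.closure ({S, T} : Set SL(2, ℤ)) := by
    rw [SpecialLinearGroup.SL2Z_generators]; trivial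
  induction hg using Subgroup.closure_induction generalizing x with
  | mem g hg =>
    rcases hg with rfl | rfl
    · exact hS x
    · exact hT x
  | one => rw [one_smul]
  | mul g h _ _ ihg ihh => rw [mul_smul, ihg, ihh]
  | inv g _ ih =>
    have := ih (g⁻¹ • x)
    rw [smul_inv_smul] at this
    exact this.symm

omit [Finite (SL(2, ℤ) ⧸ Γ)] in
theorem exists_smul_base (x : SL(2, ℤ) ⧸ Γ) :
    ∃ g : SL(2, ℤ), g • ((1 : SL(2, ℤ)) : SL(2, ℤ) ⧸ Γ) = x := by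
  induction x using QuotientGroup.induction_on with
  | H a => exact ⟨a, by show ((a * 1 : SL(2, ℤ)) : SL(2, ℤ) ⧸ Γ) = a; rw [mul_one]⟩


/-- a `Fintype` structure on the coset space (only used internally, for finite sums) -/
local instance instFintypeCoset : Fintype (SL(2, ℤ) ⧸ Γ) := Fintype.ofFinite _

omit [Finite (SL(2, ℤ) ⧸ Γ)] in
theorem sum_smul_invariant [Fintype (SL(2, ℤ) ⧸ Γ)] (g : SL(2, ℤ)) {ψ : (SL(2, ℤ) ⧸ Γ) → ℂ}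
    (hψ : ∀ x, ψ (g • x) = ψ x) (f : (SL(2, ℤ) ⧸ Γ) → ℂ) :
    ∑ x, ψ x * f (g • x) = ∑ x, ψ x * f x := by
  have h := Equiv.sum_comp (MulAction.toPerm g) (fun x => ψ x * f x)
  simp only [MulAction.toPerm_apply] at h
  rw [← h]
  exact Finset.sum_congr rfl fun x _ => by rw [hψ]

omit [Finite (SL(2, ℤ) ⧸ Γ)] in
theorem sum_pow_smul_invariant [Fintype (SL(2, ℤ) ⧸ Γ)] (g : SL(2, ℤ))
    {ψ : (SL(2, ℤ) ⧸ Γ) → ℂ} (hψ : ∀ x, ψ (g • x) = ψ x) (f : (SL(2, ℤ) ⧸ Γ) → ℂ) (j : ℕ) :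
    ∑ x, ψ x * f (g ^ j • x) = ∑ x, ψ x * f x := by
  induction j generalizing f with
  | zero => exact Finset.sum_congr rfl fun x _ => by rw [pow_zero, one_smul]
  | succ j ih =>
    have h1 := ih (fun x => f (g • x))
    rw [← sum_smul_invariant Γ g hψ f, ← h1]
    exact Finset.sum_congr rfl fun x _ => by rw [pow_succ', mul_smul]

/-- the pairing `(a, b), ψ ↦ ∑ ψ (b - a)` on `T`-invariant `ψ` -/
def LamE : (((SL(2, ℤ) ⧸ Γ) → ℂ) × ((SL(2, ℤ) ⧸ Γ) → ℂ)) →ₗ[ℂ] (Inv Γ T) →ₗ[ℂ] ℂ :=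
  LinearMap.mk₂ ℂ (fun p ψ => ∑ x, (ψ : (SL(2, ℤ) ⧸ Γ) → ℂ) x * (p.2 x - p.1 x))
    (fun p q ψ => by
      simp only [Prod.snd_add, Prod.fst_add, Pi.add_apply]
      rw [← Finset.sum_add_distrib]
      exact Finset.sum_congr rfl fun x _ => by ring)
    (fun c p ψ => by
      simp only [Prod.smul_snd, Prod.smul_fst, Pi.smul_apply, smul_eq_mul]
      rw [Finset.mul_sum]
      exact Finset.sum_congr rfl fun x _ => by ring)
    (fun p ψ ψ' => by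
      simp only [Submodule.coe_add, Pi.add_apply]
      rw [← Finset.sum_add_distrib]
      exact Finset.sum_congr rfl fun x _ => by ring)
    (fun c p ψ => by
      simp only [Submodule.coe_smul, Pi.smul_apply, smul_eq_mul]
      rw [Finset.mul_sum]
      exact Finset.sum_congr rfl fun x _ => by ring)

/-- the pairing restricted to `Asub × Bsub` -/
def Lam : ((Asub Γ) × (Bsub Γ)) →ₗ[ℂ] (Inv Γ T) →ₗ[ℂ] ℂ :=
  LamE Γ ∘ₗ ((Asub Γ).subtype.prodMap (Bsub Γ).subtype)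

theorem Lam_apply (p : (Asub Γ) × (Bsub Γ)) (ψ : Inv Γ T) :
    Lam Γ p ψ = ∑ x, (ψ : (SL(2, ℤ) ⧸ Γ) → ℂ) x
      * ((p.2 : (SL(2, ℤ) ⧸ Γ) → ℂ) x - (p.1 : (SL(2, ℤ) ⧸ Γ) → ℂ) x) := rfl

theorem S_invariant_of_mem_ker_flip (hneg : (-1 : SL(2, ℤ)) ∈ Γ) {ψ : Inv Γ T}
    (hψ : ψ ∈ LinearMap.ker (Lam Γ).flip) (y : SL(2, ℤ) ⧸ Γ) :
    (ψ : (SL(2, ℤ) ⧸ Γ) → ℂ) (S • y) = (ψ : (SL(2, ℤ) ⧸ Γ) → ℂ) y := by
  classical
  set v : (SL(2, ℤ) ⧸ Γ) → ℂ := fun x => if x = S • y then 1 else 0 with hv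
  have ha : (fun x => v (S • x) - v x) ∈ Asub Γ := by
    rw [mem_Asub]
    intro x
    show v (S • S • x) - v (S • x) + (v (S • x) - v x) = 0
    rw [← mul_smul, S_mul_S, neg_one_smul_coset hneg]
    ring
  have h0 : Lam Γ (⟨fun x => v (S • x) - v x, ha⟩, 0) ψ = 0 := by
    have := LinearMap.mem_ker.mp hψ
    exact LinearMap.congr_fun this _
  rw [Lam_apply] at h0
  simp only [ZeroMemClass.coe_zero, Pi.zero_apply, zero_sub, hv] at h0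
  have h1 : ∑ x, (ψ : (SL(2, ℤ) ⧸ Γ) → ℂ) x
      * -((if S • x = S • y then (1 : ℂ) else 0) - (if x = S • y then (1 : ℂ) else 0))
      = (ψ : (SL(2, ℤ) ⧸ Γ) → ℂ) (S • y) - (ψ : (SL(2, ℤ) ⧸ Γ) → ℂ) y := by
    have e1 : ∀ x : SL(2, ℤ) ⧸ Γ, (S • x = S • y) ↔ x = y := fun x => smul_left_cancel_iff S
    simp only [e1, neg_sub, mul_sub, Finset.sum_sub_distrib, mul_ite, mul_one, mul_zero,
      Finset.sum_ite_eq', Finset.mem_univ, if_true]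
  rw [h1] at h0
  exact sub_eq_zero.mp h0

theorem finrank_ker_flip_le_one (hneg : (-1 : SL(2, ℤ)) ∈ Γ) :
    Module.finrank ℂ (LinearMap.ker (Lam Γ).flip) ≤ 1 := by
  obtain ⟨ev, hev⟩ : ∃ ev : (LinearMap.ker (Lam Γ).flip) →ₗ[ℂ] ℂ, ∀ ψ, ev ψ
      = (ψ.1 : (SL(2, ℤ) ⧸ Γ) → ℂ) (((1 : SL(2, ℤ)) : SL(2, ℤ) ⧸ Γ)) :=
    ⟨(LinearMap.proj (((1 : SL(2, ℤ)) : SL(2, ℤ) ⧸ Γ))) ∘ₗ (Inv Γ T).subtype
      ∘ₗ (LinearMap.ker (Lam Γ).flip).subtype, fun _ => rfl⟩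
  have key : ∀ ψ : LinearMap.ker (Lam Γ).flip, ev ψ = 0 → ψ = 0 := by
    intro ψ hψ
    rw [hev] at hψ
    apply Subtype.ext
    apply Subtype.ext
    funext x
    obtain ⟨g, rfl⟩ := exists_smul_base Γ x
    rw [invariant_of_S_T Γ (S_invariant_of_mem_ker_flip Γ hneg ψ.2) (mem_Inv Γ |>.mp ψ.1.2) g]
    exact hψ
  have hinj : Function.Injective ev := by
    intro ψ₁ ψ₂ h
    have h0 : ev (ψ₁ - ψ₂) = 0 := by
      rw [hev, Submodule.coe_sub, Submodule.coe_sub, Pi.sub_apply, ← hev, ← hev, h, sub_self]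
    exact sub_eq_zero.mp (key _ h0)
  calc Module.finrank ℂ (LinearMap.ker (Lam Γ).flip) ≤ Module.finrank ℂ ℂ :=
        LinearMap.finrank_le_finrank_of_injective hinj
    _ = 1 := Module.finrank_self ℂ

theorem finrank_range_Lam (hneg : (-1 : SL(2, ℤ)) ∈ Γ) :
    Module.finrank ℂ (Inv Γ T) ≤ Module.finrank ℂ (LinearMap.range (Lam Γ)) + 1 := by
  have h := Subspace.finrank_add_finrank_dualCoannihilator_eq (LinearMap.range (Lam Γ))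
  rw [LinearMap.dualCoannihilator_range_eq_ker_flip] at h
  have h1 := finrank_ker_flip_le_one Γ hneg
  rw [← h]
  exact Nat.add_le_add_left h1 _


/-! ### The crossed maps attached to pairs `(φ, v)` -/

omit [Finite (SL(2, ℤ) ⧸ Γ)] in
variable {Γ} in
/-- `cph` as a linear map in `φ`. -/
def cphL (g : SL(2, ℤ)) : (Additive Γ →+ ℂ) →ₗ[ℂ] ((SL(2, ℤ) ⧸ Γ) → ℂ) where
  toFun φ := fun x => cph φ g x
  map_add' φ ψ := by funext x; simp [cph]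
  map_smul' c φ := by funext x; simp [cph]

omit [Finite (SL(2, ℤ) ⧸ Γ)] in
/-- the crossed map attached to a pair `(φ, v)` -/
def fgen (g : SL(2, ℤ)) :
    ((parabolicHoms ℂ Γ ℂ) × ((SL(2, ℤ) ⧸ Γ) → ℂ)) →ₗ[ℂ] ((SL(2, ℤ) ⧸ Γ) → ℂ) :=
  (cphL g ∘ₗ (parabolicHoms ℂ Γ ℂ).subtype) ∘ₗ LinearMap.fst ℂ _ _
    + (P Γ g - LinearMap.id) ∘ₗ LinearMap.snd ℂ _ _

omit [Finite (SL(2, ℤ) ⧸ Γ)] in
theorem fgen_apply (g : SL(2, ℤ)) (p : (parabolicHoms ℂ Γ ℂ) × ((SL(2, ℤ) ⧸ Γ) → ℂ))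
    (x : SL(2, ℤ) ⧸ Γ) :
    fgen Γ g p x = cph (p.1 : Additive Γ →+ ℂ) g x + (p.2 (g • x) - p.2 x) := rfl

omit [Finite (SL(2, ℤ) ⧸ Γ)] in
theorem fgen_mul (g h : SL(2, ℤ)) (p : (parabolicHoms ℂ Γ ℂ) × ((SL(2, ℤ) ⧸ Γ) → ℂ))
    (x : SL(2, ℤ) ⧸ Γ) :
    fgen Γ (g * h) p x = fgen Γ g p (h • x) + fgen Γ h p x := by
  simp only [fgen_apply, cph_mul, mul_smul]; ring

omit [Finite (SL(2, ℤ) ⧸ Γ)] in
theorem fgen_one (p : (parabolicHoms ℂ Γ ℂ) × ((SL(2, ℤ) ⧸ Γ) → ℂ)) (x : SL(2, ℤ) ⧸ Γ) :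
    fgen Γ 1 p x = 0 := by
  simp [fgen_apply, cph_one]

omit [Finite (SL(2, ℤ) ⧸ Γ)] in
theorem fgen_inv (g : SL(2, ℤ)) (p : (parabolicHoms ℂ Γ ℂ) × ((SL(2, ℤ) ⧸ Γ) → ℂ))
    (x : SL(2, ℤ) ⧸ Γ) : fgen Γ g⁻¹ p x = - fgen Γ g p (g⁻¹ • x) := by
  have h := fgen_mul Γ g g⁻¹ p x
  rw [mul_inv_cancel, fgen_one] at h
  linear_combination -h

omit [Finite (SL(2, ℤ) ⧸ Γ)] in
theorem fgen_of_trivial {g : SL(2, ℤ)} (hg : ∀ x : SL(2, ℤ) ⧸ Γ, g • x = x)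
    (htr : (g : Matrix (Fin 2) (Fin 2) ℤ).trace ^ 2 = 4)
    (p : (parabolicHoms ℂ Γ ℂ) × ((SL(2, ℤ) ⧸ Γ) → ℂ)) (x : SL(2, ℤ) ⧸ Γ) :
    fgen Γ g p x = 0 := by
  rw [fgen_apply, cph_eq_zero_of_fixed (mem_parabolicHoms_iff.mp p.1.2) (hg x) htr, hg x]; ring

omit [Finite (SL(2, ℤ) ⧸ Γ)] in
theorem fgen_pow (g : SL(2, ℤ)) (n : ℕ) (p : (parabolicHoms ℂ Γ ℂ) × ((SL(2, ℤ) ⧸ Γ) → ℂ))
    (x : SL(2, ℤ) ⧸ Γ) :
    fgen Γ (g ^ n) p x = ∑ j ∈ Finset.range n, fgen Γ g p (g ^ j • x) := by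
  induction n generalizing x with
  | zero => simp [fgen_one]
  | succ n ih =>
    rw [pow_succ, fgen_mul, ih, Finset.sum_range_succ', pow_zero, one_smul]
    refine congrArg (· + fgen Γ g p x) (Finset.sum_congr rfl fun j _ => ?_)
    rw [pow_succ, mul_smul]

theorem exists_pow_T_trivial : ∃ m : ℕ, 0 < m ∧ ∀ x : SL(2, ℤ) ⧸ Γ, (T ^ m) • x = x := by
  refine ⟨orderOf (MulAction.toPermHom SL(2, ℤ) (SL(2, ℤ) ⧸ Γ) T), orderOf_pos _, fun x => ?_⟩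
  have h := pow_orderOf_eq_one (MulAction.toPermHom SL(2, ℤ) (SL(2, ℤ) ⧸ Γ) T)
  rw [← map_pow] at h
  have := congrArg (fun e => e x) h
  simpa using this

theorem trace_T_pow_sq (m : ℕ) :
    ((T ^ m : SL(2, ℤ)) : Matrix (Fin 2) (Fin 2) ℤ).trace ^ 2 = 4 := by
  have h := ModularGroup.coe_T_zpow (m : ℤ)
  rw [zpow_natCast] at h
  rw [h, Matrix.trace_fin_two_of]
  norm_num

theorem sum_fgen_T (p : (parabolicHoms ℂ Γ ℂ) × ((SL(2, ℤ) ⧸ Γ) → ℂ))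
    {ψ : (SL(2, ℤ) ⧸ Γ) → ℂ} (hψ : ∀ x, ψ (T • x) = ψ x) :
    ∑ x, ψ x * fgen Γ T p x = 0 := by
  obtain ⟨m, hm, hT⟩ := exists_pow_T_trivial Γ
  have h1 : ∑ x, ψ x * fgen Γ (T ^ m) p x = 0 := by
    refine Finset.sum_eq_zero fun x _ => ?_
    rw [fgen_of_trivial Γ hT (trace_T_pow_sq m), mul_zero]
  have h2 : ∑ x, ψ x * fgen Γ (T ^ m) p x = (m : ℂ) * ∑ x, ψ x * fgen Γ T p x := by
    simp only [fgen_pow, Finset.mul_sum]
    rw [Finset.sum_comm]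
    simp only [← Finset.mul_sum]
    rw [Finset.sum_congr rfl fun j _ => sum_pow_smul_invariant Γ T hψ (fgen Γ T p) j]
    simp
  rw [h2] at h1
  rcases mul_eq_zero.mp h1 with h | h
  · exact absurd (Nat.cast_eq_zero.mp h) hm.ne'
  · exact h


omit [Finite (SL(2, ℤ) ⧸ Γ)] in
theorem fgen_neg_one (hneg : (-1 : SL(2, ℤ)) ∈ Γ)
    (p : (parabolicHoms ℂ Γ ℂ) × ((SL(2, ℤ) ⧸ Γ) → ℂ)) (x : SL(2, ℤ) ⧸ Γ) :
    fgen Γ (-1) p x = 0 :=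
  fgen_of_trivial Γ (neg_one_smul_coset hneg) trace_neg_one_sq p x

omit [Finite (SL(2, ℤ) ⧸ Γ)] in
theorem fgen_S_mem (hneg : (-1 : SL(2, ℤ)) ∈ Γ)
    (p : (parabolicHoms ℂ Γ ℂ) × ((SL(2, ℤ) ⧸ Γ) → ℂ)) : fgen Γ S p ∈ Asub Γ := by
  rw [mem_Asub]
  intro x
  rw [← fgen_mul, S_mul_S, fgen_neg_one Γ hneg]

omit [Finite (SL(2, ℤ) ⧸ Γ)] in
theorem fgen_ST_mem (hneg : (-1 : SL(2, ℤ)) ∈ Γ)
    (p : (parabolicHoms ℂ Γ ℂ) × ((SL(2, ℤ) ⧸ Γ) → ℂ)) : fgen Γ (S * T) p ∈ Bsub Γ := by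
  rw [mem_Bsub]
  intro x
  rw [← fgen_mul, ← fgen_mul, ST_cube, fgen_neg_one Γ hneg]

theorem Lam_cond (p : (parabolicHoms ℂ Γ ℂ) × ((SL(2, ℤ) ⧸ Γ) → ℂ))
    {ψ : (SL(2, ℤ) ⧸ Γ) → ℂ} (hψ : ∀ x, ψ (T • x) = ψ x) :
    ∑ x, ψ x * (fgen Γ (S * T) p x - fgen Γ S p x) = 0 := by
  have hT : ∀ x, fgen Γ (S * T) p x - fgen Γ S p x
      = fgen Γ T p x + (fgen Γ S p (T • x) - fgen Γ S p x) := by
    intro x
    have h1 : fgen Γ T p x = fgen Γ S⁻¹ p ((S * T) • x) + fgen Γ (S * T) p x := by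
      rw [← fgen_mul, inv_mul_cancel_left]
    rw [fgen_inv, ← mul_smul, inv_mul_cancel_left] at h1
    rw [h1]; ring
  simp only [hT, mul_add, mul_sub, Finset.sum_add_distrib, Finset.sum_sub_distrib]
  rw [sum_fgen_T Γ p hψ, sum_smul_invariant Γ T hψ]
  ring

/-- the map `(φ, v) ↦ (a, b)` -/
def Psi (hneg : (-1 : SL(2, ℤ)) ∈ Γ) :
    ((parabolicHoms ℂ Γ ℂ) × ((SL(2, ℤ) ⧸ Γ) → ℂ)) →ₗ[ℂ] ((Asub Γ) × (Bsub Γ)) :=
  ((fgen Γ S).codRestrict (Asub Γ) (fgen_S_mem Γ hneg)).prod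
    ((fgen Γ (S * T)).codRestrict (Bsub Γ) (fgen_ST_mem Γ hneg))

theorem Lam_Psi (hneg : (-1 : SL(2, ℤ)) ∈ Γ)
    (p : (parabolicHoms ℂ Γ ℂ) × ((SL(2, ℤ) ⧸ Γ) → ℂ)) : Lam Γ (Psi Γ hneg p) = 0 := by
  refine LinearMap.ext fun ψ => ?_
  rw [Lam_apply]
  exact Lam_cond Γ p ((mem_Inv Γ).mp ψ.2)

omit [Finite (SL(2, ℤ) ⧸ Γ)] in
theorem fgen_eq_zero_of_S_ST {p : (parabolicHoms ℂ Γ ℂ) × ((SL(2, ℤ) ⧸ Γ) → ℂ)}
    (hS : ∀ x, fgen Γ S p x = 0) (hST : ∀ x, fgen Γ (S * T) p x = 0) (g : SL(2, ℤ))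
    (x : SL(2, ℤ) ⧸ Γ) : fgen Γ g p x = 0 := by
  have hT : ∀ x, fgen Γ T p x = 0 := by
    intro x
    have h1 : fgen Γ T p x = fgen Γ S⁻¹ p ((S * T) • x) + fgen Γ (S * T) p x := by
      rw [← fgen_mul, inv_mul_cancel_left]
    rw [h1, fgen_inv, hS, hST]; ring
  have hg : g ∈ Subgroup.closure ({S, T} : Set SL(2, ℤ)) := by
    rw [SpecialLinearGroup.SL2Z_generators]; trivial
  induction hg using Subgroup.closure_induction generalizing x with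
  | mem g hg =>
    rcases hg with rfl | rfl
    · exact hS x
    · exact hT x
  | one => exact fgen_one Γ p x
  | mul g h _ _ ihg ihh => rw [fgen_mul, ihg, ihh, add_zero]
  | inv g _ ih => rw [fgen_inv, ih, neg_zero]

omit [Finite (SL(2, ℤ) ⧸ Γ)] in
theorem out_base_mem : (Quotient.out (((1 : SL(2, ℤ)) : SL(2, ℤ) ⧸ Γ)) : SL(2, ℤ)) ∈ Γ := by
  have h := QuotientGroup.out_eq' (((1 : SL(2, ℤ)) : SL(2, ℤ) ⧸ Γ))
  have h2 := QuotientGroup.eq.mp h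
  rw [mul_one] at h2
  exact (Subgroup.inv_mem_iff Γ).mp h2

omit [Finite (SL(2, ℤ) ⧸ Γ)] in
theorem cph_base (φ : Additive Γ →+ ℂ) (γ : Γ) :
    cph φ (γ : SL(2, ℤ)) (((1 : SL(2, ℤ)) : SL(2, ℤ) ⧸ Γ)) = φ (Additive.ofMul γ) := by
  have hfix : (γ : SL(2, ℤ)) • (((1 : SL(2, ℤ)) : SL(2, ℤ) ⧸ Γ))
      = (((1 : SL(2, ℤ)) : SL(2, ℤ) ⧸ Γ)) := by
    show (((γ : SL(2, ℤ)) * 1 : SL(2, ℤ)) : SL(2, ℤ) ⧸ Γ) = ((1 : SL(2, ℤ)) : SL(2, ℤ) ⧸ Γ)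
    rw [mul_one, QuotientGroup.eq, mul_one]
    exact Γ.inv_mem γ.2
  have hk : kap Γ (γ : SL(2, ℤ)) (((1 : SL(2, ℤ)) : SL(2, ℤ) ⧸ Γ))
      = (⟨_, out_base_mem Γ⟩ : Γ)⁻¹ * γ * ⟨_, out_base_mem Γ⟩ := by
    apply Subtype.ext
    rw [kap_of_smul_eq Γ hfix]
    rfl
  unfold cph
  rw [hk, ofMul_mul, ofMul_mul, ofMul_inv, map_add, map_add, map_neg]
  ring

omit [Finite (SL(2, ℤ) ⧸ Γ)] in
/-- the kernel of `Psi` consists of pairs `(0, constant)` -/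
theorem eq_of_Psi_eq_zero (hneg : (-1 : SL(2, ℤ)) ∈ Γ)
    {p : (parabolicHoms ℂ Γ ℂ) × ((SL(2, ℤ) ⧸ Γ) → ℂ)} (hp : Psi Γ hneg p = 0) :
    p.1 = 0 ∧ ∀ x, p.2 x = p.2 (((1 : SL(2, ℤ)) : SL(2, ℤ) ⧸ Γ)) := by
  have hS : ∀ x, fgen Γ S p x = 0 := by
    intro x
    have := congrArg (fun q : (Asub Γ) × (Bsub Γ) => (q.1 : (SL(2, ℤ) ⧸ Γ) → ℂ) x) hp
    exact this
  have hST : ∀ x, fgen Γ (S * T) p x = 0 := by
    intro x
    have := congrArg (fun q : (Asub Γ) × (Bsub Γ) => (q.2 : (SL(2, ℤ) ⧸ Γ) → ℂ) x) hp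
    exact this
  have hall := fgen_eq_zero_of_S_ST Γ hS hST
  have hφ : p.1 = 0 := by
    apply Subtype.ext
    refine AddMonoidHom.ext fun γ => ?_
    have h1 := hall (Additive.toMul γ : Γ) (((1 : SL(2, ℤ)) : SL(2, ℤ) ⧸ Γ))
    rw [fgen_apply, cph_base] at h1
    have hfix : ((Additive.toMul γ : Γ) : SL(2, ℤ)) • (((1 : SL(2, ℤ)) : SL(2, ℤ) ⧸ Γ))
        = (((1 : SL(2, ℤ)) : SL(2, ℤ) ⧸ Γ)) := by
      show ((((Additive.toMul γ : Γ) : SL(2, ℤ)) * 1 : SL(2, ℤ)) : SL(2, ℤ) ⧸ Γ)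
        = ((1 : SL(2, ℤ)) : SL(2, ℤ) ⧸ Γ)
      rw [mul_one, QuotientGroup.eq, mul_one]
      exact Γ.inv_mem (Additive.toMul γ : Γ).2
    rw [hfix, sub_self, add_zero] at h1
    simpa using h1
  refine ⟨hφ, fun x => ?_⟩
  obtain ⟨g, rfl⟩ := exists_smul_base Γ x
  have h1 := hall g (((1 : SL(2, ℤ)) : SL(2, ℤ) ⧸ Γ))
  rw [fgen_apply, hφ] at h1
  simp only [ZeroMemClass.coe_zero, cph, AddMonoidHom.zero_apply, zero_add] at h1
  exact sub_eq_zero.mp h1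


/-- `parabolicHoms` is finite-dimensional. -/
theorem finite_parabolicHoms (hneg : (-1 : SL(2, ℤ)) ∈ Γ) :
    Module.Finite ℂ (parabolicHoms ℂ Γ ℂ) := by
  have hinj : Function.Injective (Psi Γ hneg ∘ₗ LinearMap.inl ℂ _ _) := by
    intro φ φ' h
    have h0 : Psi Γ hneg (φ - φ', 0) = 0 := by
      have e : ((φ - φ', 0) : (parabolicHoms ℂ Γ ℂ) × ((SL(2, ℤ) ⧸ Γ) → ℂ))
          = (φ, 0) - (φ', 0) := by simp
      rw [e, map_sub]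
      exact sub_eq_zero.mpr h
    exact sub_eq_zero.mp (eq_of_Psi_eq_zero Γ hneg h0).1
  exact Module.Finite.of_injective _ hinj

omit [Finite (SL(2, ℤ) ⧸ Γ)] in
theorem finrank_ker_Psi_le (hneg : (-1 : SL(2, ℤ)) ∈ Γ) :
    Module.finrank ℂ (LinearMap.ker (Psi Γ hneg)) ≤ 1 := by
  obtain ⟨c, hc⟩ : ∃ c : ℂ →ₗ[ℂ] ((parabolicHoms ℂ Γ ℂ) × ((SL(2, ℤ) ⧸ Γ) → ℂ)),
      ∀ t, c t = (0, fun _ => t) :=
    ⟨LinearMap.inr ℂ _ _ ∘ₗ (LinearMap.pi fun _ => LinearMap.id), fun _ => rfl⟩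
  have hle : LinearMap.ker (Psi Γ hneg) ≤ LinearMap.range c := by
    intro p hp
    obtain ⟨h1, h2⟩ := eq_of_Psi_eq_zero Γ hneg (LinearMap.mem_ker.mp hp)
    refine ⟨p.2 (((1 : SL(2, ℤ)) : SL(2, ℤ) ⧸ Γ)), ?_⟩
    rw [hc]
    exact Prod.ext h1.symm (funext fun x => (h2 x).symm)
  calc Module.finrank ℂ (LinearMap.ker (Psi Γ hneg))
      ≤ Module.finrank ℂ (LinearMap.range c) := Submodule.finrank_mono hle
    _ ≤ Module.finrank ℂ ℂ := LinearMap.finrank_range_le c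
    _ = 1 := Module.finrank_self ℂ

/-- **The Euler-characteristic bound** for parabolic homomorphisms of a finite-index subgroup
`Γ ∋ -1` of `SL(2, ℤ)`: `dim Hom_par(Γ, ℂ) + o_S + o_{ST} + o_T ≤ [SL₂(ℤ) : Γ] + 2`, where `o_g`
is the dimension of the space of `g`-invariant functions on the coset space (i.e. the number of
`⟨g⟩`-orbits). -/
theorem finrank_parabolicHoms_add_le (hneg : (-1 : SL(2, ℤ)) ∈ Γ) :
    Module.finrank ℂ (parabolicHoms ℂ Γ ℂ) + Module.finrank ℂ (Inv Γ S)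
      + Module.finrank ℂ (Inv Γ (S * T)) + Module.finrank ℂ (Inv Γ T)
      ≤ Nat.card (SL(2, ℤ) ⧸ Γ) + 2 := by
  have := finite_parabolicHoms Γ hneg
  have h1 := LinearMap.finrank_range_add_finrank_ker (Psi Γ hneg)
  rw [Module.finrank_prod, Module.finrank_fintype_fun_eq_card, ← Nat.card_eq_fintype_card] at h1
  have h2 : Module.finrank ℂ (LinearMap.range (Psi Γ hneg))
      ≤ Module.finrank ℂ (LinearMap.ker (Lam Γ)) :=
    Submodule.finrank_mono (by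
      rintro _ ⟨p, rfl⟩
      exact LinearMap.mem_ker.mpr (Lam_Psi Γ hneg p))
  have h3 := LinearMap.finrank_range_add_finrank_ker (Lam Γ)
  rw [Module.finrank_prod] at h3
  have h4 := finrank_range_Lam Γ hneg
  have h5 := finrank_Asub_add Γ hneg
  have h6 := finrank_Bsub_add Γ hneg
  have h7 := finrank_ker_Psi_le Γ hneg
  omega

end

end Fermat.Agent.S21.ParabolicBound
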