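import Mathlib
import Fermat.Prelude.Def_ModularCurve_PeriodMap
import Fermat.Prelude.Def_ModularCurve_GenusNumerics
import Fermat.Agent.S21.ParabolicBound
import Fermat.Agent.S21.OrbitInv
import Fermat.Agent.S21.Burnside
import Fermat.Agent.S20.IndexGamma0
import Fermat.Agent.S20.CountFix
import Fermat.Agent.S20.CountCusps

set_option autoImplicit false

/-!
# S21: the parabolic cohomology of `Γ₀(N)` has dimension at most `2 * genusFormula N`

Combination of `ParabolicBound.finrank_parabolicHoms_add_le` (finite linear algebra on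
`SL(2, ℤ) ⧸ Γ₀(N)`), the orbit counts (`OrbitInv`, `Burnside`) and the explicit counts of S20
(`index_Gamma0`, `card_fixedBy_S`, `card_fixedBy_ST`, `card_orbits_T`).
-/

open scoped MatrixGroups
open ModularCurve.Period ModularGroup CongruenceSubgroup

namespace Fermat.Agent.S21

open ParabolicBound

/-- `parabolicHoms` of `Γ₀(N)` is finite-dimensional. -/
theorem finite_parabolicHoms_Gamma0 (N : ℕ) [NeZero N] :
    Module.Finite ℂ (parabolicHoms ℂ (Gamma0 N) ℂ) :=
  finite_parabolicHoms (Gamma0 N) (S20.Count.neg_one_mem_Gamma0 N)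

/-- The dimension of the parabolic cohomology of `Γ₀(N)` is at most twice the genus. -/
theorem finrank_parabolicHoms_le (N : ℕ) [NeZero N] :
    (Module.finrank ℂ (parabolicHoms ℂ (Gamma0 N) ℂ) : ℚ) ≤ 2 * ModularCurve.genusFormula N := by
  have hneg := S20.Count.neg_one_mem_Gamma0 N
  have h := finrank_parabolicHoms_add_le (Gamma0 N) hneg
  have hS : Module.finrank ℂ (Inv (Gamma0 N) S) =
      Nat.card (MulAction.orbitRel.Quotient (Subgroup.zpowers S) (SL(2, ℤ) ⧸ Gamma0 N)) :=
    finrank_invariants_eq_card_orbits S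
  have hST : Module.finrank ℂ (Inv (Gamma0 N) (S * T)) =
      Nat.card (MulAction.orbitRel.Quotient (Subgroup.zpowers (S * T)) (SL(2, ℤ) ⧸ Gamma0 N)) :=
    finrank_invariants_eq_card_orbits (S * T)
  have hT : Module.finrank ℂ (Inv (Gamma0 N) T) =
      Nat.card (MulAction.orbitRel.Quotient (Subgroup.zpowers T) (SL(2, ℤ) ⧸ Gamma0 N)) :=
    finrank_invariants_eq_card_orbits T
  have h2 := two_mul_card_orbits (X := SL(2, ℤ) ⧸ Gamma0 N) S
    (by intro x; rw [S_mul_S]; exact neg_one_smul_coset hneg x)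
  have h3 := three_mul_card_orbits (X := SL(2, ℤ) ⧸ Gamma0 N) (S * T)
    (by intro x; rw [ST_cube]; exact neg_one_smul_coset hneg x)
  rw [S20.Count.card_fixedBy_S] at h2
  rw [S20.Count.card_fixedBy_ST] at h3
  have hidx : Nat.card (SL(2, ℤ) ⧸ Gamma0 N) = ModularCurve.dedekindPsi N := by
    rw [← S20.Count.index_Gamma0, Subgroup.index]
  rw [hS, hST, hT, S20.Count.card_orbits_T, hidx] at h
  rw [hidx] at h2 h3
  unfold ModularCurve.genusFormula
  have h' : ((Module.finrank ℂ (parabolicHoms ℂ (Gamma0 N) ℂ) : ℕ) : ℚ)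
      + (Nat.card (MulAction.orbitRel.Quotient (Subgroup.zpowers S) (SL(2, ℤ) ⧸ Gamma0 N)) : ℚ)
      + (Nat.card (MulAction.orbitRel.Quotient (Subgroup.zpowers (S * T))
          (SL(2, ℤ) ⧸ Gamma0 N)) : ℚ)
      + (ModularCurve.cuspCount N : ℚ) ≤ (ModularCurve.dedekindPsi N : ℚ) + 2 := by
    exact_mod_cast h
  have h2' : (2 : ℚ) * (Nat.card (MulAction.orbitRel.Quotient (Subgroup.zpowers S)
      (SL(2, ℤ) ⧸ Gamma0 N)) : ℚ) = (ModularCurve.dedekindPsi N : ℚ) + (ModularCurve.nuTwo N : ℚ) := by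
    exact_mod_cast h2
  have h3' : (3 : ℚ) * (Nat.card (MulAction.orbitRel.Quotient (Subgroup.zpowers (S * T))
      (SL(2, ℤ) ⧸ Gamma0 N)) : ℚ) = (ModularCurve.dedekindPsi N : ℚ)
        + 2 * (ModularCurve.nuThree N : ℚ) := by
    exact_mod_cast h3
  linarith

end Fermat.Agent.S21
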