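import Mathlib
import Fermat.Prelude.Def_ModularCurve_GenusNumerics
import Fermat.Agent.S21.GenusBound

set_option autoImplicit false

/-!
# The genus formula in terms of orbit counts on `SL(2, ℤ) ⧸ Γ₀(N)`

With `X = SL(2, ℤ) ⧸ Γ₀(N)` and `o_g` the number of orbits of `⟨g⟩` on `X`:

* `2 * o_S = |X| + ν₂`, `3 * o_{ST} = |X| + 2 ν₃`, `o_T = cuspCount N`, `|X| = ψ(N)`;
* `2 * genusFormula N - 2 = |X| - o_S - o_{ST} - o_T` (Riemann–Hurwitz shape);
* `0 ≤ genusFormula N`.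
-/

open scoped MatrixGroups
open ModularCurve.Period ModularGroup CongruenceSubgroup

namespace Fermat.Agent.S21

open ParabolicBound

/-- `|SL(2, ℤ) ⧸ Γ₀(N)| = ψ(N)`. -/
theorem card_cosets_Gamma0 (N : ℕ) [NeZero N] :
    Nat.card (SL(2, ℤ) ⧸ Gamma0 N) = ModularCurve.dedekindPsi N := by
  rw [← S20.Count.index_Gamma0, Subgroup.index]

/-- `S * S` acts trivially on `SL(2, ℤ) ⧸ Γ₀(N)`. -/
theorem S_mul_S_smul_coset (N : ℕ) (x : SL(2, ℤ) ⧸ Gamma0 N) : (S * S) • x = x := by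
  rw [S_mul_S]; exact neg_one_smul_coset (S20.Count.neg_one_mem_Gamma0 N) x

/-- `(S * T) ^ 3` acts trivially on `SL(2, ℤ) ⧸ Γ₀(N)`. -/
theorem ST_cube_smul_coset (N : ℕ) (x : SL(2, ℤ) ⧸ Gamma0 N) :
    ((S * T) * (S * T) * (S * T)) • x = x := by
  rw [ST_cube]; exact neg_one_smul_coset (S20.Count.neg_one_mem_Gamma0 N) x

/-- Number of `⟨S⟩`-orbits on `SL(2, ℤ) ⧸ Γ₀(N)`: `2 * o_S = ψ(N) + ν₂(N)`. -/
theorem two_mul_card_orbits_S (N : ℕ) [NeZero N] :
    2 * Nat.card (MulAction.orbitRel.Quotient (Subgroup.zpowers S) (SL(2, ℤ) ⧸ Gamma0 N)) =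
      ModularCurve.dedekindPsi N + ModularCurve.nuTwo N := by
  have h2 := two_mul_card_orbits (X := SL(2, ℤ) ⧸ Gamma0 N) S (S_mul_S_smul_coset N)
  rw [S20.Count.card_fixedBy_S, card_cosets_Gamma0] at h2
  exact h2

/-- Number of `⟨S * T⟩`-orbits on `SL(2, ℤ) ⧸ Γ₀(N)`: `3 * o_{ST} = ψ(N) + 2 ν₃(N)`. -/
theorem three_mul_card_orbits_ST (N : ℕ) [NeZero N] :
    3 * Nat.card (MulAction.orbitRel.Quotient (Subgroup.zpowers (S * T))
        (SL(2, ℤ) ⧸ Gamma0 N)) =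
      ModularCurve.dedekindPsi N + 2 * ModularCurve.nuThree N := by
  have h3 := three_mul_card_orbits (X := SL(2, ℤ) ⧸ Gamma0 N) (S * T) (ST_cube_smul_coset N)
  rw [S20.Count.card_fixedBy_ST, card_cosets_Gamma0] at h3
  exact h3

/-- **Riemann–Hurwitz shape of the genus formula**: `2 g - 2 = μ - o_S - o_{ST} - o_T`. -/
theorem two_mul_genusFormula_sub_two (N : ℕ) [NeZero N] :
    2 * ModularCurve.genusFormula N - 2 =
      (Nat.card (SL(2, ℤ) ⧸ Gamma0 N) : ℚ)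
        - (Nat.card (MulAction.orbitRel.Quotient (Subgroup.zpowers S)
            (SL(2, ℤ) ⧸ Gamma0 N)) : ℚ)
        - (Nat.card (MulAction.orbitRel.Quotient (Subgroup.zpowers (S * T))
            (SL(2, ℤ) ⧸ Gamma0 N)) : ℚ)
        - (Nat.card (MulAction.orbitRel.Quotient (Subgroup.zpowers T)
            (SL(2, ℤ) ⧸ Gamma0 N)) : ℚ) := by
  have h2 := two_mul_card_orbits_S N
  have h3 := three_mul_card_orbits_ST N
  rw [S20.Count.card_orbits_T, card_cosets_Gamma0]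
  unfold ModularCurve.genusFormula
  have h2' : (2 : ℚ) * (Nat.card (MulAction.orbitRel.Quotient (Subgroup.zpowers S)
      (SL(2, ℤ) ⧸ Gamma0 N)) : ℚ) =
        (ModularCurve.dedekindPsi N : ℚ) + (ModularCurve.nuTwo N : ℚ) := by
    exact_mod_cast h2
  have h3' : (3 : ℚ) * (Nat.card (MulAction.orbitRel.Quotient (Subgroup.zpowers (S * T))
      (SL(2, ℤ) ⧸ Gamma0 N)) : ℚ) = (ModularCurve.dedekindPsi N : ℚ)
        + 2 * (ModularCurve.nuThree N : ℚ) := by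
    exact_mod_cast h3
  linarith

/-- The genus formula is nonnegative. -/
theorem genusFormula_nonneg (N : ℕ) [NeZero N] : 0 ≤ ModularCurve.genusFormula N := by
  have h := finrank_parabolicHoms_le N
  have h0 : (0 : ℚ) ≤ (Module.finrank ℂ (parabolicHoms ℂ (Gamma0 N) ℂ) : ℚ) := Nat.cast_nonneg _
  linarith

end Fermat.Agent.S21
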