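import Mathlib

/-!
# S21, piece (B1): a maximum principle on the cusped quotient `Γ₀(N) \ ℍ`

`exists_const_of_re_invariant`: a holomorphic function `G` on the upper half plane whose real part
is `Γ₀(N)`-invariant, such that every translate `G ∘ δ` (`δ ∈ SL(2, ℤ)`) is `N`-periodic and
bounded at `i∞`, is constant.

The proof applies the maximum modulus principle to the cusp functions of the finitely many
functions `exp ∘ G ∘ δ`, `δ` running through representatives of `Γ₀(N) \ SL(2, ℤ)`.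
-/

set_option autoImplicit false

open UpperHalfPlane hiding I
open Complex Filter Function Topology Metric
open scoped MatrixGroups Manifold Real

namespace Fermat.Agent.S21

/-- A holomorphic function on the upper half plane whose exponential is constant is constant. -/
theorem exists_const_of_exp_const {G : ℍ → ℂ} (hG : MDifferentiable 𝓘(ℂ) 𝓘(ℂ) G) {c₀ : ℂ}
    (h : ∀ z : ℍ, Complex.exp (G z) = c₀) : ∃ c : ℂ, ∀ z : ℍ, G z = c := by
  have hU : IsOpen {z : ℂ | 0 < z.im} := isOpen_upperHalfPlaneSet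
  have hgd : DifferentiableOn ℂ (G ∘ ofComplex) {z : ℂ | 0 < z.im} :=
    UpperHalfPlane.mdifferentiable_iff.mp hG
  have hderiv : Set.EqOn (deriv (G ∘ ofComplex)) 0 {z : ℂ | 0 < z.im} := by
    intro z hz
    have hgz : DifferentiableAt ℂ (G ∘ ofComplex) z := hgd.differentiableAt (hU.mem_nhds hz)
    have h1 : deriv (fun w => Complex.exp ((G ∘ ofComplex) w)) z =
        Complex.exp ((G ∘ ofComplex) z) * deriv (G ∘ ofComplex) z :=
      (hgz.hasDerivAt.cexp).deriv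
    have h2 : (fun w => Complex.exp ((G ∘ ofComplex) w)) =ᶠ[𝓝 z] fun _ => c₀ := by
      filter_upwards [hU.mem_nhds hz] with w _
      exact h (ofComplex w)
    have h3 : deriv (fun w => Complex.exp ((G ∘ ofComplex) w)) z = 0 := by
      rw [h2.deriv_eq]
      simp
    rw [h3] at h1
    exact (mul_eq_zero.mp h1.symm).resolve_left (Complex.exp_ne_zero _)
  refine ⟨G UpperHalfPlane.I, fun z => ?_⟩
  have h4 := hU.is_const_of_deriv_eq_zero (convex_halfSpace_im_gt 0).isPreconnected hgd hderiv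
    (x := (z : ℂ)) (y := ((UpperHalfPlane.I : ℍ) : ℂ)) z.im_pos UpperHalfPlane.I.im_pos
  simp only [comp_apply, ofComplex_apply] at h4
  exact h4

/-- **Maximum principle on `Γ₀(N) \ ℍ`.** -/
theorem exists_const_of_re_invariant (N : ℕ) [NeZero N] {G : ℍ → ℂ}
    (hG : MDifferentiable 𝓘(ℂ) 𝓘(ℂ) G)
    (hinv : ∀ γ ∈ CongruenceSubgroup.Gamma0 N, ∀ z : ℍ, (G (γ • z)).re = (G z).re)
    (hper : ∀ (δ : SL(2, ℤ)) (w : ℍ), G (δ • (ModularGroup.T ^ N • w)) = G (δ • w))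
    (hbdd : ∀ δ : SL(2, ℤ), IsBoundedAtImInfty (fun w : ℍ => G (δ • w))) :
    ∃ c : ℂ, ∀ z : ℍ, G z = c := by
  have hN : (0 : ℝ) < (N : ℝ) := Nat.cast_pos.mpr (NeZero.pos N)
  -- the translates of `exp ∘ G`
  let E : SL(2, ℤ) → ℍ → ℂ := fun δ w => Complex.exp (G (δ • w))
  have hEnorm : ∀ γ : SL(2, ℤ), γ ∈ CongruenceSubgroup.Gamma0 N → ∀ (δ : SL(2, ℤ)) (w : ℍ),
      ‖E (γ * δ) w‖ = ‖E δ w‖ := by
    intro γ hγ δ w
    simp only [E, Complex.norm_exp, mul_smul]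
    rw [hinv γ hγ]
  have hGδ : ∀ δ : SL(2, ℤ), MDifferentiable 𝓘(ℂ) 𝓘(ℂ) (fun w : ℍ => G (δ • w)) := by
    intro δ
    have h1 : MDifferentiable 𝓘(ℂ) 𝓘(ℂ) (fun τ : ℍ => (δ : GL (Fin 2) ℝ) • τ) :=
      mdifferentiable_smul (by simp)
    exact hG.comp h1
  have hEhol : ∀ δ, MDifferentiable 𝓘(ℂ) 𝓘(ℂ) (E δ) := by
    intro δ
    have h1 := UpperHalfPlane.mdifferentiable_iff.mp (hGδ δ)
    rw [UpperHalfPlane.mdifferentiable_iff]
    exact h1.cexp
  have hEper : ∀ δ, Periodic (E δ ∘ ofComplex) (N : ℝ) := by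
    intro δ w
    by_cases hw : 0 < w.im
    · have hw' : 0 < (w + ((N : ℝ) : ℂ)).im := by simpa using hw
      simp only [comp_apply, E]
      rw [ofComplex_apply_of_im_pos hw', ofComplex_apply_of_im_pos hw]
      have h1 : (⟨w + ((N : ℝ) : ℂ), hw'⟩ : ℍ) = ModularGroup.T ^ N • (⟨w, hw⟩ : ℍ) := by
        apply UpperHalfPlane.ext
        rw [← zpow_natCast, ModularGroup.coe_T_zpow_smul_eq]
        simp
      rw [h1, hper]
    · have hw1 : w.im ≤ 0 := not_lt.mp hw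
      have hw' : (w + ((N : ℝ) : ℂ)).im ≤ 0 := by simpa using hw1
      simp only [comp_apply]
      rw [ofComplex_apply_of_im_nonpos hw', ofComplex_apply_of_im_nonpos hw1]
  have hEbdd : ∀ δ, IsBoundedAtImInfty (E δ) := by
    intro δ
    obtain ⟨M, A, hMA⟩ := isBoundedAtImInfty_iff.mp (hbdd δ)
    refine isBoundedAtImInfty_iff.mpr ⟨Real.exp M, A, fun z hz => ?_⟩
    simp only [E, Complex.norm_exp]
    exact Real.exp_le_exp.mpr ((Complex.re_le_norm _).trans (hMA z hz))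
  -- their cusp functions
  let Φ : SL(2, ℤ) → ℂ → ℂ := fun δ => cuspFunction (N : ℝ) (E δ)
  have hΦd : ∀ δ, DifferentiableOn ℂ (Φ δ) (ball 0 1) := fun δ =>
    differentiableOn_cuspFunction_ball hN (hEper δ) (hEhol δ) (hEbdd δ)
  have hΦeq : ∀ δ (τ : ℍ), Φ δ (Periodic.qParam (N : ℝ) τ) = E δ τ := fun δ τ =>
    eq_cuspFunction τ hN.ne' (hEper δ)
  -- the radius
  obtain ⟨r, hr⟩ : ∃ r : ℝ, r = Real.exp (-π / N) := ⟨_, rfl⟩
  have hr0 : 0 ≤ r := by rw [hr]; exact (Real.exp_pos _).le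
  have hr1 : r < 1 := by
    rw [hr, Real.exp_lt_one_iff]
    exact div_neg_of_neg_of_pos (neg_lt_zero.mpr Real.pi_pos) hN
  -- coset representatives
  have hfin : Finite (SL(2, ℤ) ⧸ CongruenceSubgroup.Gamma0 N) :=
    Subgroup.finite_quotient_of_finiteIndex
  let rep : SL(2, ℤ) ⧸ CongruenceSubgroup.Gamma0 N → SL(2, ℤ) := fun i => (Quotient.out i)⁻¹
  have hrep : ∀ g : SL(2, ℤ), ∃ i, ∃ γ ∈ CongruenceSubgroup.Gamma0 N, g = γ * rep i := by
    intro g
    obtain ⟨h, hh⟩ := QuotientGroup.mk_out_eq_mul (CongruenceSubgroup.Gamma0 N) g⁻¹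
    refine ⟨(QuotientGroup.mk g⁻¹ : SL(2, ℤ) ⧸ CongruenceSubgroup.Gamma0 N), (h : SL(2, ℤ)),
      h.2, ?_⟩
    show g = h * (Quotient.out _)⁻¹
    rw [hh]
    group
  -- maxima on the closed ball of radius `r`
  have hmax : ∀ i, ∃ q ∈ closedBall (0 : ℂ) r, ∀ q' ∈ closedBall (0 : ℂ) r,
      ‖Φ (rep i) q'‖ ≤ ‖Φ (rep i) q‖ := by
    intro i
    have hcont : ContinuousOn (fun q => ‖Φ (rep i) q‖) (closedBall 0 r) :=
      ((hΦd (rep i)).continuousOn.mono (closedBall_subset_ball hr1)).norm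
    obtain ⟨q, hq, hqmax⟩ := (isCompact_closedBall (0 : ℂ) r).exists_isMaxOn
      (nonempty_closedBall.mpr hr0) hcont
    exact ⟨q, hq, fun q' hq' => hqmax hq'⟩
  choose qm hqm hqmax using hmax
  obtain ⟨i₀, hi₀⟩ := Finite.exists_max (fun i => ‖Φ (rep i) (qm i)‖)
  -- the global bound
  have hkey : ∀ z : ℍ, ‖Complex.exp (G z)‖ ≤ ‖Φ (rep i₀) (qm i₀)‖ := by
    intro z
    obtain ⟨g, hg⟩ := ModularGroup.exists_one_half_le_im_smul z
    obtain ⟨j, γ, hγ, hgj⟩ := hrep g⁻¹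
    have h1 : Complex.exp (G z) = E (γ * rep j) (g • z) := by
      simp only [E]
      rw [← hgj, inv_smul_smul]
    rw [h1, hEnorm γ hγ, ← hΦeq]
    refine (hqmax j _ ?_).trans (hi₀ j)
    rw [mem_closedBall_zero_iff, Periodic.norm_qParam, hr]
    apply Real.exp_le_exp.mpr
    rw [div_le_div_iff_of_pos_right hN]
    have h2 : (1 : ℝ) / 2 ≤ ((g • z : ℍ) : ℂ).im := hg
    nlinarith [Real.pi_pos]
  -- maximum modulus principle
  have hconst : Set.EqOn (Φ (rep i₀)) (Function.const ℂ (Φ (rep i₀) 0)) (ball 0 1) := by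
    refine Complex.eq_const_of_exists_le (hΦd (rep i₀)) hr0 hr1 (fun q hq => ⟨qm i₀, hqm i₀, ?_⟩)
    rcases eq_or_ne q 0 with rfl | hq0
    · exact hqmax i₀ 0 (mem_closedBall_self hr0)
    · have hq1 : ‖q‖ < 1 := mem_ball_zero_iff.mp hq
      have hτ : Periodic.qParam (N : ℝ) (Periodic.invQParam (N : ℝ) q) = q :=
        Periodic.qParam_right_inv hN.ne' hq0
      have him : 0 < (Periodic.invQParam (N : ℝ) q).im :=
        Periodic.im_invQParam_pos_of_norm_lt_one hN hq1 hq0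
      have h1 := hΦeq (rep i₀) ⟨Periodic.invQParam (N : ℝ) q, him⟩
      rw [UpperHalfPlane.coe_mk, hτ] at h1
      rw [h1]
      exact hkey _
  have hE : ∀ z : ℍ, Complex.exp (G z) = Φ (rep i₀) 0 := by
    intro z
    have h1 : Complex.exp (G z) = E (rep i₀) ((rep i₀)⁻¹ • z) := by
      simp only [E]
      rw [smul_inv_smul]
    rw [h1, ← hΦeq]
    exact hconst (mem_ball_zero_iff.mpr (Periodic.norm_qParam_lt_one hN (im_pos _)))
  exact exists_const_of_exp_const hG hE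

end Fermat.Agent.S21
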