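import Mathlib
import Fermat.Prelude.Def_ModularCurve_PeriodHomPair

/-!
# S21, piece (C): periods of cusp forms are parabolic homomorphisms

* `exists_conj_upperTriangular`: an element of `SL(2, ℤ)` with `trace ^ 2 = 4` is conjugate in
  `SL(2, ℤ)` to an upper triangular matrix.
* `period_eq_zero_of_trace_sq`: the period of an equivariant primitive along such an element
  vanishes.
* `periodMap_mem_parabolicHoms`, `range_periodHomPair_le`.
-/

set_option autoImplicit false

open UpperHalfPlane CongruenceSubgroup Filter Topology ModularCurve ModularCurve.Period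
open scoped MatrixGroups

namespace Fermat.Agent.S21

/-- An element of `SL(2, ℤ)` whose trace squares to `4` is conjugate to an upper triangular
element. -/
theorem exists_conj_upperTriangular (γ : SL(2, ℤ))
    (h : (γ : Matrix (Fin 2) (Fin 2) ℤ).trace ^ 2 = 4) :
    ∃ δ g : SL(2, ℤ), γ * δ = δ * g ∧ (g : Matrix (Fin 2) (Fin 2) ℤ) 1 0 = 0 := by
  by_cases hc : (γ : Matrix (Fin 2) (Fin 2) ℤ) 1 0 = 0
  · exact ⟨1, γ, by simp, hc⟩
  set a := (γ : Matrix (Fin 2) (Fin 2) ℤ) 0 0 with ha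
  set b := (γ : Matrix (Fin 2) (Fin 2) ℤ) 0 1 with hb
  set c := (γ : Matrix (Fin 2) (Fin 2) ℤ) 1 0 with hc'
  set d := (γ : Matrix (Fin 2) (Fin 2) ℤ) 1 1 with hd
  have hdet : a * d - b * c = 1 := by
    have := γ.det_coe
    rw [Matrix.det_fin_two] at this
    exact this
  have htr : (a + d) ^ 2 = 4 := by
    rw [Matrix.trace_fin_two] at h
    exact h
  -- the sign `ε = ±1` with `a + d = 2 ε`
  obtain ⟨ε, hε, hε2⟩ : ∃ ε : ℤ, ε ^ 2 = 1 ∧ a + d = 2 * ε := by
    have h2 : (a + d - 2) * (a + d + 2) = 0 := by ring_nf; ring_nf at htr; omega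
    rcases mul_eq_zero.mp h2 with h3 | h3
    · exact ⟨1, by norm_num, by omega⟩
    · exact ⟨-1, by norm_num, by omega⟩
  -- primitive eigenvector
  have hpos : 0 < Int.gcd (ε - d) c := Int.gcd_pos_of_ne_zero_right _ hc
  obtain ⟨x, y, hxy, hx', hy'⟩ := Int.exists_gcd_one hpos
  obtain ⟨g₀, hg₀⟩ : ∃ g₀ : ℤ, g₀ = (Int.gcd (ε - d) c : ℤ) := ⟨_, rfl⟩
  have hg₀ne : g₀ ≠ 0 := by
    rw [hg₀]
    exact_mod_cast hpos.ne'
  have hx : ε - d = g₀ * x := by rw [hg₀, mul_comm]; exact hx'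
  have hy : c = g₀ * y := by rw [hg₀, mul_comm]; exact hy'
  have hcop : IsCoprime x y := Int.isCoprime_iff_gcd_eq_one.mpr hxy
  obtain ⟨u, v, huv⟩ := hcop
  -- the key relation
  have hkey : c * x ^ 2 + (d - a) * x * y - b * y ^ 2 = 0 := by
    have h1 : g₀ ^ 2 * (c * x ^ 2 + (d - a) * x * y - b * y ^ 2) = 0 := by
      linear_combination (-(c * (g₀ * x + (ε - d)) + (d - a) * (g₀ * y))) * hx +
        (-((d - a) * (ε - d) - b * (g₀ * y + c))) * hy + c * (-1) * hε + c * (-ε) * hε2 + c * hdet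
    rcases mul_eq_zero.mp h1 with h2 | h2
    · exact absurd (pow_eq_zero_iff (n := 2) (by norm_num) |>.mp h2) hg₀ne
    · exact h2
  let δ : SL(2, ℤ) := ⟨!![x, -v; y, u], by
    rw [Matrix.det_fin_two_of]
    linear_combination huv⟩
  refine ⟨δ, δ⁻¹ * γ * δ, by group, ?_⟩
  have hδ : (δ : Matrix (Fin 2) (Fin 2) ℤ) = !![x, -v; y, u] := rfl
  have hδinv : ((δ⁻¹ : SL(2, ℤ)) : Matrix (Fin 2) (Fin 2) ℤ) = !![u, v; -y, x] := by
    rw [Matrix.SpecialLinearGroup.coe_inv, hδ, Matrix.adjugate_fin_two_of]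
    simp
  have hγ : (γ : Matrix (Fin 2) (Fin 2) ℤ) = !![a, b; c, d] := by
    ext i j
    fin_cases i <;> fin_cases j <;> rfl
  rw [Matrix.SpecialLinearGroup.coe_mul, Matrix.SpecialLinearGroup.coe_mul, hδinv, hδ, hγ]
  simp only [Matrix.mul_apply, Fin.sum_univ_two, Matrix.of_apply, Matrix.cons_val',
    Matrix.cons_val_zero, Matrix.cons_val_one, Matrix.cons_val_fin_one]
  linear_combination hkey

/-- The period of an equivariant primitive of a cusp form along an element of trace `±2`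
vanishes. -/
theorem period_eq_zero_of_trace_sq {N : ℕ} {f : CuspForm (Gamma0 N) 2} {F : ℍ → ℂ}
    (hF : HasEquivariantPrimitive N f F) (γ : Gamma0 N)
    (hγ : ((γ : SL(2, ℤ)) : Matrix (Fin 2) (Fin 2) ℤ).trace ^ 2 = 4) :
    hF.2.2.1.period γ = 0 := by
  obtain ⟨δ, g, hδg, hg⟩ := exists_conj_upperTriangular (γ : SL(2, ℤ)) hγ
  obtain ⟨L, hL⟩ := hF.2.2.2 δ
  have hgt : Tendsto (fun w : ℍ => g • w) atImInfty atImInfty := by
    have h1 : ((g : GL (Fin 2) ℝ) : Matrix (Fin 2) (Fin 2) ℝ) 1 0 = 0 := by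
      simp [hg]
    exact tendsto_smul_atImInfty h1
  have h2 : Tendsto (fun w : ℍ => F (δ • (g • w))) atImInfty (𝓝 L) := hL.comp hgt
  have h3 : ∀ w : ℍ, F (δ • (g • w)) - F (δ • w) = hF.2.2.1.period γ := by
    intro w
    have h4 := hF.2.2.1.sub_eq_period γ (δ • w)
    rw [← mul_smul, hδg, mul_smul] at h4
    exact h4
  have h5 : Tendsto (fun w : ℍ => F (δ • (g • w)) - F (δ • w)) atImInfty (𝓝 (L - L)) :=
    h2.sub hL
  have h6 : Tendsto (fun _ : ℍ => hF.2.2.1.period γ) atImInfty (𝓝 (L - L)) := by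
    refine h5.congr fun w => ?_
    exact h3 w
  have h7 := tendsto_nhds_unique h6 tendsto_const_nhds
  rw [← h7, sub_self]

/-- The period map of a weight two cusp form is a parabolic homomorphism. -/
theorem periodMap_mem_parabolicHoms (N : ℕ) (f : CuspForm (Gamma0 N) 2) :
    periodMap N f ∈ parabolicHoms ℂ (Gamma0 N) ℂ := by
  by_cases h : ∃ F : ℍ → ℂ, HasEquivariantPrimitive N f F
  · obtain ⟨F, hF⟩ := h
    obtain ⟨F₀, h₀, heq⟩ := periodMap_def N f hF
    rw [heq, mem_parabolicHoms_iff]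
    intro γ hγ
    rw [IsEquivariantPrimitive.periodHom_apply]
    exact period_eq_zero_of_trace_sq h₀ γ hγ
  · have : periodMap N f = 0 := by
      unfold periodMap
      rw [dif_neg h]
    rw [this]
    exact Submodule.zero_mem _

/-- The range of the Eichler–Shimura period pairing consists of parabolic homomorphisms. -/
theorem range_periodHomPair_le (N : ℕ) :
    LinearMap.range (periodHomPair N) ≤ parabolicHoms ℂ (Gamma0 N) ℂ := by
  by_cases h : ExistsPeriodMapLinear N
  · obtain ⟨pml, hpml, heq⟩ := periodHomPair_def N h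
    rw [heq]
    rintro _ ⟨⟨f, g⟩, rfl⟩
    have hf : pml f ∈ parabolicHoms ℂ (Gamma0 N) ℂ := hpml f ▸ periodMap_mem_parabolicHoms N f
    have hg : pml g ∈ parabolicHoms ℂ (Gamma0 N) ℂ := hpml g ▸ periodMap_mem_parabolicHoms N g
    rw [LinearMap.coprod_apply]
    refine Submodule.add_mem _ ?_ ?_
    · show pml f + charInvolution N ℂ ℂ (pml f) ∈ _
      exact Submodule.add_mem _ hf (charInvolution_mem_parabolicHoms N ℂ ℂ hf)
    · show pml g - charInvolution N ℂ ℂ (pml g) ∈ _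
      exact Submodule.sub_mem _ hg (charInvolution_mem_parabolicHoms N ℂ ℂ hg)
  · have : periodHomPair N = 0 := by
      unfold periodHomPair
      rw [dif_neg h]
    rw [this, LinearMap.range_zero]
    exact bot_le

end Fermat.Agent.S21
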