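import Mathlib
import Fermat.Prelude.Def_ModularCurve_PeriodHomPair
import Fermat.Agent.S22.PeriodicPrimitive
import Fermat.Agent.S22.Bol

/-!
# S21 (A): equivariant primitives of weight-2 cusp forms on `Γ₀(N)`

Every `f ∈ S₂(Γ₀(N))` has a primitive `F` with `HasEquivariantPrimitive N f F`; the period map
does not depend on the primitive, hence is linear, and `periodHomPair` has an explicit formula.
-/

set_option autoImplicit false

open UpperHalfPlane hiding I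
open Complex Filter Function Topology
open scoped MatrixGroups Manifold ModularForm Real
open Derivative
open CongruenceSubgroup ModularCurve ModularCurve.Period

namespace Fermat.Agent.S21

theorem coe_T_pow (n : ℕ) :
    ((ModularGroup.T ^ n : SL(2, ℤ)) : Matrix (Fin 2) (Fin 2) ℤ) = !![1, (n : ℤ); 0, 1] := by
  have := ModularGroup.coe_T_zpow (n : ℤ)
  rwa [zpow_natCast] at this

/-- `δ T^N δ⁻¹ ∈ Γ₀(N)` for every `δ ∈ SL(2, ℤ)`. -/
theorem conj_T_pow_mem_Gamma0 (N : ℕ) (δ : SL(2, ℤ)) :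
    δ * ModularGroup.T ^ N * δ⁻¹ ∈ Gamma0 N := by
  rw [Gamma0_mem]
  have key : ((δ * ModularGroup.T ^ N * δ⁻¹ : SL(2, ℤ)) : Matrix (Fin 2) (Fin 2) ℤ) 1 0
      = (N : ℤ) * (-(δ 1 0 * δ 1 0)) := by
    simp only [Matrix.SpecialLinearGroup.coe_mul, Matrix.SpecialLinearGroup.coe_inv, coe_T_pow,
      Matrix.adjugate_fin_two, Matrix.mul_apply, Fin.sum_univ_two, Matrix.of_apply,
      Matrix.cons_val_zero, Matrix.cons_val_one, Matrix.cons_val', Matrix.cons_val_fin_one]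
    ring
  rw [key]
  push_cast
  simp

/-- Slashing by `T^n` is translation by `n`. -/
theorem slash_T_pow_apply (g : ℍ → ℂ) (k : ℤ) (n : ℕ) (w : ℍ) :
    (g ∣[k] (ModularGroup.T ^ n)) w = g (ModularGroup.T ^ n • w) := by
  rw [ModularForm.SL_slash_apply, ModularGroup.denom_apply, coe_T_pow]
  simp

theorem slash_T_pow_of_invariant {N : ℕ} {k : ℤ} {f : ℍ → ℂ}
    (hinv : ∀ γ ∈ Gamma0 N, f ∣[k] γ = f) (δ : SL(2, ℤ)) :
    (f ∣[k] δ) ∣[k] (ModularGroup.T ^ N) = f ∣[k] δ := by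
  have h1 : δ * ModularGroup.T ^ N = (δ * ModularGroup.T ^ N * δ⁻¹) * δ := by group
  rw [← SlashAction.slash_mul, h1, SlashAction.slash_mul, hinv _ (conj_T_pow_mem_Gamma0 N δ)]

/-- `ofComplex (w + N) = T^N • ofComplex w` on the upper half plane. -/
theorem ofComplex_add_natCast (N : ℕ) {w : ℂ} (hw : 0 < w.im) :
    ofComplex (w + ((N : ℝ) : ℂ)) = ModularGroup.T ^ N • ofComplex w := by
  have h1 : ModularGroup.T ^ N • ofComplex w = ((N : ℤ) : ℝ) +ᵥ ofComplex w := by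
    rw [← UpperHalfPlane.modular_T_zpow_smul, zpow_natCast]
  rw [h1, ofComplex_apply_of_im_pos hw]
  have h2 : w + ((N : ℝ) : ℂ) = ((((N : ℤ) : ℝ) +ᵥ (⟨w, hw⟩ : ℍ) : ℍ) : ℂ) := by
    rw [UpperHalfPlane.coe_vadd]
    push_cast
    ring
  rw [h2, ofComplex_apply]

/-- Every `SL(2, ℤ)`-translate of a `Γ₀(N)`-invariant function is `N`-periodic. -/
theorem periodic_slash {N : ℕ} {k : ℤ} {f : ℍ → ℂ}
    (hinv : ∀ γ ∈ Gamma0 N, f ∣[k] γ = f) (δ : SL(2, ℤ)) :
    Periodic ((f ∣[k] δ) ∘ ofComplex) ((N : ℝ) : ℂ) := by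
  refine Fermat.Agent.S22.periodic_comp_ofComplex_of_extension
    (G := f ∣[k] δ) (Gc := (f ∣[k] δ) ∘ ofComplex) (h := (N : ℝ)) (fun z => ?_) (fun w hw => ?_)
  · simp only [comp_apply, ofComplex_apply]
  · simp only [comp_apply]
    rw [ofComplex_add_natCast N hw, ← slash_T_pow_apply (f ∣[k] δ) k N,
      slash_T_pow_of_invariant hinv δ]

/-- Function-level existence of an equivariant primitive. -/
theorem exists_primitive_aux (N : ℕ) [NeZero N] {f : ℍ → ℂ} (hol : MDiff f)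
    (hinv : ∀ γ ∈ Gamma0 N, f ∣[(2 : ℤ)] γ = f)
    (hzero : ∀ δ : SL(2, ℤ), IsZeroAtImInfty (f ∣[(2 : ℤ)] δ)) :
    ∃ F : ℍ → ℂ, MDiff F ∧ (∀ τ : ℍ, HasDerivAt (F ∘ ofComplex) (f τ) ↑τ) ∧
      Tendsto F atImInfty (𝓝 0) ∧
      (∀ γ ∈ Gamma0 N, ∃ c : ℂ, ∀ z : ℍ, F (γ • z) - F z = c) ∧
      ∀ δ : SL(2, ℤ), ∃ L : ℂ, Tendsto (fun w : ℍ => F (δ • w)) atImInfty (𝓝 L) := by
  have hN : (0 : ℝ) < (N : ℝ) := by exact_mod_cast Nat.pos_of_ne_zero (NeZero.ne N)
  have hprim : ∀ δ : SL(2, ℤ), ∃ G : ℍ → ℂ, MDiff G ∧ D G = f ∣[(2 : ℤ)] δ ∧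
      IsZeroAtImInfty G := by
    intro δ
    obtain ⟨G, hG, hDG, -, hG0⟩ := Fermat.Agent.S22.exists_periodic_primitive hN
      (Fermat.Agent.S22.Bol.mdifferentiable_slash_SL hol 2 δ) (periodic_slash hinv δ) (hzero δ)
    exact ⟨G, hG, hDG, hG0⟩
  obtain ⟨G, hG, hDG, hG0⟩ := hprim 1
  rw [SlashAction.slash_one] at hDG
  have hD0 : ∀ γ : SL(2, ℤ), D (G ∣[(0 : ℤ)] γ) = f ∣[(2 : ℤ)] γ := by
    intro γ
    have h := Fermat.Agent.S22.Bol.bol_SL 1 hG γ
    simp only [Function.iterate_one, Nat.cast_one, sub_self] at h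
    rw [h, hDG]
    norm_num
  have h0apply : ∀ (γ : SL(2, ℤ)) (z : ℍ), (G ∣[(0 : ℤ)] γ) z = G (γ • z) := by
    intro γ z
    rw [ModularForm.SL_slash_apply]
    simp
  have h2pi : (2 * π * I : ℂ) ≠ 0 := Complex.two_pi_I_ne_zero
  refine ⟨(2 * π * I)⁻¹ • G, hG.const_smul _, ?_, ?_, ?_, ?_⟩
  · intro τ
    have hd : DifferentiableAt ℂ (G ∘ ofComplex) ↑τ :=
      UpperHalfPlane.mdifferentiableAt_iff.mp (hG τ)
    have hderiv : deriv (G ∘ ofComplex) ↑τ = 2 * π * I * f τ := by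
      have h := congrFun hDG τ
      rw [Fermat.Agent.S22.Bol.D_apply] at h
      rw [← h]
      field_simp
    have h1 := hd.hasDerivAt.const_smul ((2 * π * I)⁻¹ : ℂ)
    rw [hderiv] at h1
    have h2 : (2 * π * I)⁻¹ • (2 * π * I * f τ) = f τ := by
      rw [smul_eq_mul]
      field_simp
    rw [h2] at h1
    exact h1
  · have h : Tendsto (fun x => ((2 * π * I)⁻¹ : ℂ) • G x) atImInfty
        (𝓝 (((2 * π * I)⁻¹ : ℂ) • (0 : ℂ))) := Filter.Tendsto.const_smul hG0 _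
    rw [smul_zero] at h
    exact h
  · intro γ hγ
    have hS : MDiff (G ∣[(0 : ℤ)] γ) := Fermat.Agent.S22.Bol.mdifferentiable_slash_SL hG 0 γ
    have hDH : D (G ∣[(0 : ℤ)] γ - G) = 0 := by
      rw [normalizedDerivOfComplex_sub _ _ hS hG, hD0 γ, hinv γ hγ, hDG, sub_self]
    obtain ⟨c, hc⟩ := Fermat.Agent.S22.Bol.exists_const_of_D_eq_zero (hS.sub hG) hDH
    refine ⟨(2 * π * I)⁻¹ * c, fun z => ?_⟩
    have h := hc z
    simp only [Pi.sub_apply, h0apply] at h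
    simp only [Pi.smul_apply, smul_eq_mul]
    rw [← h]
    ring
  · intro δ
    obtain ⟨Gδ, hGδ, hDGδ, hGδ0⟩ := hprim δ
    have hS : MDiff (G ∣[(0 : ℤ)] δ) := Fermat.Agent.S22.Bol.mdifferentiable_slash_SL hG 0 δ
    have hDH : D (G ∣[(0 : ℤ)] δ - Gδ) = 0 := by
      rw [normalizedDerivOfComplex_sub _ _ hS hGδ, hD0 δ, hDGδ, sub_self]
    obtain ⟨c, hc⟩ := Fermat.Agent.S22.Bol.exists_const_of_D_eq_zero (hS.sub hGδ) hDH
    refine ⟨(2 * π * I)⁻¹ * c, ?_⟩
    have hfun : (fun w : ℍ => ((2 * π * I)⁻¹ • G) (δ • w))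
        = fun w => (2 * π * I)⁻¹ * (Gδ w + c) := by
      funext w
      have h := hc w
      simp only [Pi.sub_apply, h0apply] at h
      simp only [Pi.smul_apply, smul_eq_mul]
      rw [← h]
      ring
    rw [hfun]
    have h1 : Tendsto (fun w : ℍ => Gδ w + c) atImInfty (𝓝 (0 + c)) :=
      Filter.Tendsto.add hGδ0 tendsto_const_nhds
    have h2 := h1.const_mul ((2 * π * I)⁻¹ : ℂ)
    simpa using h2

/-- A weight-2 cusp form on `Γ₀(N)` is slash-invariant under `Γ₀(N)` (function level). -/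
theorem cuspForm_slash_eq {N : ℕ} (f : CuspForm (Gamma0 N) 2) (γ : SL(2, ℤ))
    (hγ : γ ∈ Gamma0 N) : (⇑f) ∣[(2 : ℤ)] γ = ⇑f :=
  SlashInvariantFormClass.slash_action_eq f (Matrix.SpecialLinearGroup.mapGL ℝ γ)
    (Subgroup.mem_map_of_mem _ hγ)

/-- Every `SL(2, ℤ)`-translate of a cusp form on `Γ₀(N)` is zero at `i∞`. -/
theorem cuspForm_isZeroAtImInfty_slash {N : ℕ} [NeZero N] (f : CuspForm (Gamma0 N) 2)
    (δ : SL(2, ℤ)) : IsZeroAtImInfty ((⇑f) ∣[(2 : ℤ)] δ) := by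
  have hc : IsCusp (Matrix.SpecialLinearGroup.mapGL ℝ δ • OnePoint.infty)
      ((Gamma0 N).map (Matrix.SpecialLinearGroup.mapGL ℝ)) := by
    rw [Subgroup.IsArithmetic.isCusp_iff_isCusp_SL2Z, isCusp_SL2Z_iff']
    exact ⟨δ, rfl⟩
  exact f.zero_at_cusps' hc (Matrix.SpecialLinearGroup.mapGL ℝ δ) rfl

/-- **Existence of equivariant primitives.** -/
theorem exists_hasEquivariantPrimitive (N : ℕ) [NeZero N] (f : CuspForm (Gamma0 N) 2) :
    ∃ F : ℍ → ℂ, HasEquivariantPrimitive N f F ∧ MDiff F := by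
  obtain ⟨F, hF, h1, h2, h3, h4⟩ := exists_primitive_aux N f.holo' (cuspForm_slash_eq f)
    (cuspForm_isZeroAtImInfty_slash f)
  exact ⟨F, ⟨h1, h2, fun γ => h3 γ γ.2, h4⟩, hF⟩

/-- Two primitives of the same function on `ℍ` differ by a constant. -/
theorem exists_const_of_hasDerivAt {F₁ F₂ : ℍ → ℂ} {f : ℍ → ℂ}
    (h1 : ∀ τ : ℍ, HasDerivAt (F₁ ∘ ofComplex) (f τ) ↑τ)
    (h2 : ∀ τ : ℍ, HasDerivAt (F₂ ∘ ofComplex) (f τ) ↑τ) :
    ∃ c : ℂ, ∀ z : ℍ, F₁ z - F₂ z = c := by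
  have hd : DifferentiableOn ℂ (fun w => (F₁ ∘ ofComplex) w - (F₂ ∘ ofComplex) w)
      upperHalfPlaneSet := by
    intro w hw
    have a := h1 ⟨w, hw⟩
    have b := h2 ⟨w, hw⟩
    exact (a.sub b).differentiableAt.differentiableWithinAt
  have hderiv : upperHalfPlaneSet.EqOn
      (deriv (fun w => (F₁ ∘ ofComplex) w - (F₂ ∘ ofComplex) w)) 0 := by
    intro w hw
    have a := h1 ⟨w, hw⟩
    have b := h2 ⟨w, hw⟩
    have h := (a.sub b).deriv
    rw [sub_self] at h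
    exact h
  obtain ⟨a, ha⟩ := isOpen_upperHalfPlaneSet.exists_is_const_of_deriv_eq_zero
    (Convex.isPreconnected (convex_halfSpace_im_gt 0)) hd hderiv
  refine ⟨a, fun z => ?_⟩
  have h := ha (z : ℂ) z.im_pos
  simpa [Function.comp_apply] using h

/-- The period map is computed by *any* equivariant primitive, at any base point. -/
theorem periodMap_apply {N : ℕ} {f : CuspForm (Gamma0 N) 2} {F : ℍ → ℂ}
    (hF : HasEquivariantPrimitive N f F) (γ : Gamma0 N) (z : ℍ) :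
    periodMap N f (Additive.ofMul γ) = F ((γ : SL(2, ℤ)) • z) - F z := by
  obtain ⟨F₀, h₀, heq⟩ := periodMap_def N f hF
  obtain ⟨c, hc⟩ := exists_const_of_hasDerivAt h₀.1 hF.1
  rw [heq, IsEquivariantPrimitive.periodHom_apply, hF.2.2.1.sub_eq_period γ z]
  show F₀ ((γ : SL(2, ℤ)) • UpperHalfPlane.I) - F₀ UpperHalfPlane.I
    = F ((γ : SL(2, ℤ)) • UpperHalfPlane.I) - F UpperHalfPlane.I
  have a := hc ((γ : SL(2, ℤ)) • UpperHalfPlane.I)
  have b := hc UpperHalfPlane.I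
  linear_combination a - b

theorem hasEquivariantPrimitive_add {N : ℕ} {f g : CuspForm (Gamma0 N) 2} {F G : ℍ → ℂ}
    (hF : HasEquivariantPrimitive N f F) (hG : HasEquivariantPrimitive N g G) :
    HasEquivariantPrimitive N (f + g) (F + G) := by
  refine ⟨fun τ => ?_, ?_, fun γ => ?_, fun δ => ?_⟩
  · exact (hF.1 τ).add (hG.1 τ)
  · have h := hF.2.1.add hG.2.1
    rw [add_zero] at h
    exact h
  · obtain ⟨c, hc⟩ := hF.2.2.1 γ
    obtain ⟨d, hd⟩ := hG.2.2.1 γ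
    refine ⟨c + d, fun z => ?_⟩
    simp only [Pi.add_apply]
    rw [← hc z, ← hd z]
    ring
  · obtain ⟨L, hL⟩ := hF.2.2.2 δ
    obtain ⟨M, hM⟩ := hG.2.2.2 δ
    exact ⟨L + M, hL.add hM⟩

theorem hasEquivariantPrimitive_smul {N : ℕ} {f : CuspForm (Gamma0 N) 2} {F : ℍ → ℂ} (c : ℂ)
    (hF : HasEquivariantPrimitive N f F) : HasEquivariantPrimitive N (c • f) (c • F) := by
  refine ⟨fun τ => ?_, ?_, fun γ => ?_, fun δ => ?_⟩
  · exact (hF.1 τ).const_smul c
  · have h : Tendsto (fun x => c • F x) atImInfty (𝓝 (c • (0 : ℂ))) :=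
      Filter.Tendsto.const_smul hF.2.1 c
    rw [smul_zero] at h
    exact h
  · obtain ⟨d, hd⟩ := hF.2.2.1 γ
    refine ⟨c * d, fun z => ?_⟩
    simp only [Pi.smul_apply, smul_eq_mul]
    rw [← hd z]
    ring
  · obtain ⟨L, hL⟩ := hF.2.2.2 δ
    exact ⟨c • L, hL.const_smul c⟩

theorem periodMap_add (N : ℕ) [NeZero N] (f g : CuspForm (Gamma0 N) 2) :
    periodMap N (f + g) = periodMap N f + periodMap N g := by
  obtain ⟨F, hF, -⟩ := exists_hasEquivariantPrimitive N f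
  obtain ⟨G, hG, -⟩ := exists_hasEquivariantPrimitive N g
  refine AddMonoidHom.ext fun γ => ?_
  obtain ⟨γ, rfl⟩ := Additive.ofMul.surjective γ
  rw [AddMonoidHom.add_apply,
    periodMap_apply (hasEquivariantPrimitive_add hF hG) γ UpperHalfPlane.I,
    periodMap_apply hF γ UpperHalfPlane.I, periodMap_apply hG γ UpperHalfPlane.I]
  simp only [Pi.add_apply]
  ring

theorem periodMap_smul (N : ℕ) [NeZero N] (c : ℂ) (f : CuspForm (Gamma0 N) 2) :
    periodMap N (c • f) = c • periodMap N f := by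
  obtain ⟨F, hF, -⟩ := exists_hasEquivariantPrimitive N f
  refine AddMonoidHom.ext fun γ => ?_
  obtain ⟨γ, rfl⟩ := Additive.ofMul.surjective γ
  rw [AddMonoidHom.smul_apply,
    periodMap_apply (hasEquivariantPrimitive_smul c hF) γ UpperHalfPlane.I,
    periodMap_apply hF γ UpperHalfPlane.I]
  simp only [Pi.smul_apply, smul_eq_mul]
  ring

/-- The period map as a linear map. -/
noncomputable def periodMapLin (N : ℕ) [NeZero N] :
    CuspForm (Gamma0 N) 2 →ₗ[ℂ] (Additive (Gamma0 N) →+ ℂ) where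
  toFun := periodMap N
  map_add' := periodMap_add N
  map_smul' c f := by
    simpa using periodMap_smul N c f

@[simp] theorem periodMapLin_apply (N : ℕ) [NeZero N] (f : CuspForm (Gamma0 N) 2) :
    periodMapLin N f = periodMap N f := rfl

theorem existsPeriodMapLinear (N : ℕ) [NeZero N] : ExistsPeriodMapLinear N :=
  ⟨periodMapLin N, fun _ => rfl⟩

/-- Explicit formula for `periodHomPair`. -/
theorem periodHomPair_apply (N : ℕ) [NeZero N] (f g : CuspForm (Gamma0 N) 2) :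
    periodHomPair N (f, g) = periodMap N (f + g)
      + charInvolution N ℂ ℂ (periodMap N (f - g)) := by
  obtain ⟨pml, hpml, heq⟩ := periodHomPair_def N (existsPeriodMapLinear N)
  rw [heq, ← hpml (f + g), ← hpml (f - g)]
  simp only [LinearMap.coprod_apply, LinearMap.comp_apply, LinearMap.add_apply,
    LinearMap.sub_apply, LinearMap.id_apply, map_add, map_sub]
  abel

end Fermat.Agent.S21
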