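import Mathlib
import Fermat.Prelude.Def_ModularCurve_PeriodHomPair
import Fermat.Agent.S21.Primitive
import Fermat.Agent.S21.Parabolic
import Fermat.Agent.S21.MaxPrinciple

/-!
# S21 (B): injectivity of the Eichler–Shimura period pairing

If `periodHomPair N (f, g) = 0` then, with `A`, `B` the equivariant primitives of `f + g` and
`f - g` and `B*(z) = conj (B (-conj z))`, the real parts of `A + B*` and of `i (A - B*)` are
`Γ₀(N)`-invariant, so both are constant by the maximum principle; hence `f + g = f - g = 0`.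
-/

set_option autoImplicit false

open UpperHalfPlane hiding I
open Complex Filter Function Topology
open scoped MatrixGroups Manifold ModularForm Real ComplexConjugate
open CongruenceSubgroup ModularCurve ModularCurve.Period

namespace Fermat.Agent.S21

/-- The anti-holomorphic involution `z ↦ -conj z` intertwines `γ` and `jConjSL γ`. -/
theorem J_smul_smul (γ : SL(2, ℤ)) (z : ℍ) : J • (γ • z) = jConjSL γ • (J • z) := by
  have h : J * (γ : GL (Fin 2) ℝ) = ((jConjSL γ : SL(2, ℤ)) : GL (Fin 2) ℝ) * J := by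
    ext i j
    fin_cases i <;> fin_cases j <;>
      simp [J, jConjMat, Matrix.mul_apply, Fin.sum_univ_two]
  show J • ((γ : GL (Fin 2) ℝ) • z) = ((jConjSL γ : SL(2, ℤ)) : GL (Fin 2) ℝ) • (J • z)
  rw [← mul_smul, h, mul_smul]

theorem J_smul_J_smul (z : ℍ) : J • (J • z) = z := by
  rw [← mul_smul, ← sq, J_sq, one_smul]

theorem tendsto_J_smul : Tendsto (fun w : ℍ => J • w) atImInfty atImInfty :=
  tendsto_smul_atImInfty (by simp [J])

/-- The "conjugate" of a function on the upper half plane: `z ↦ conj (F (-conj z))`. -/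
noncomputable def conjFun (F : ℍ → ℂ) : ℍ → ℂ := fun z => conj (F (J • z))

theorem conjFun_apply (F : ℍ → ℂ) (z : ℍ) : conjFun F z = conj (F (J • z)) := rfl

/-- The conjugate of a holomorphic function is holomorphic. -/
theorem mdifferentiable_conjFun {F : ℍ → ℂ} {f : ℍ → ℂ}
    (hF : ∀ τ : ℍ, HasDerivAt (F ∘ ofComplex) (f τ) ↑τ) : MDiff (conjFun F) := by
  intro τ
  rw [UpperHalfPlane.mdifferentiableAt_iff]
  have h1 := (hF (J • τ)).conj_conj
  have h2 : conj ((J • τ : ℍ) : ℂ) = -(τ : ℂ) := by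
    rw [coe_J_smul, map_neg, Complex.conj_conj]
  rw [h2] at h1
  have h3 : HasDerivAt (fun w : ℂ => -w) (-1) (τ : ℂ) := hasDerivAt_neg' (τ : ℂ)
  have h4 := HasDerivAt.comp (τ : ℂ) h1 h3
  refine h4.differentiableAt.congr_of_eventuallyEq ?_
  filter_upwards [isOpen_upperHalfPlaneSet.mem_nhds τ.im_pos] with w hw
  have hw' : 0 < w.im := hw
  simp only [comp_apply, conjFun]
  congr 2
  rw [J_smul, ofComplex_apply_of_im_pos hw', map_neg]

/-- Translates of an equivariant primitive are `N`-periodic. -/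
theorem primitive_T_pow_smul {N : ℕ} {f : CuspForm (Gamma0 N) 2} {F : ℍ → ℂ}
    (hF : HasEquivariantPrimitive N f F) (δ : SL(2, ℤ)) (w : ℍ) :
    F (δ • (ModularGroup.T ^ N • w)) = F (δ • w) := by
  set γ' : Gamma0 N := ⟨δ * ModularGroup.T ^ N * δ⁻¹, conj_T_pow_mem_Gamma0 N δ⟩ with hγ'
  have htr : ((γ' : SL(2, ℤ)) : Matrix (Fin 2) (Fin 2) ℤ).trace ^ 2 = 4 := by
    have h1 : ((γ' : SL(2, ℤ)) : Matrix (Fin 2) (Fin 2) ℤ).trace = 2 := by
      show ((δ * ModularGroup.T ^ N * δ⁻¹ : SL(2, ℤ)) : Matrix (Fin 2) (Fin 2) ℤ).trace = 2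
      rw [Matrix.SpecialLinearGroup.coe_mul, Matrix.SpecialLinearGroup.coe_mul,
        Matrix.trace_mul_cycle, ← Matrix.SpecialLinearGroup.coe_mul, inv_mul_cancel,
        Matrix.SpecialLinearGroup.coe_one, one_mul, coe_T_pow, Matrix.trace_fin_two_of]
      norm_num
    rw [h1]
    norm_num
  have h := hF.2.2.1.sub_eq_period γ' (δ • w)
  rw [period_eq_zero_of_trace_sq hF γ' htr] at h
  have h2 : ((γ' : SL(2, ℤ))) • (δ • w) = δ • (ModularGroup.T ^ N • w) := by
    show (δ * ModularGroup.T ^ N * δ⁻¹) • (δ • w) = δ • (ModularGroup.T ^ N • w)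
    rw [← mul_smul, ← mul_smul]
    congr 1
    group
  rw [h2] at h
  exact sub_eq_zero.mp h

theorem primitive_T_pow_inv_smul {N : ℕ} {f : CuspForm (Gamma0 N) 2} {F : ℍ → ℂ}
    (hF : HasEquivariantPrimitive N f F) (δ : SL(2, ℤ)) (w : ℍ) :
    F (δ • ((ModularGroup.T ^ N)⁻¹ • w)) = F (δ • w) := by
  have h := primitive_T_pow_smul hF δ ((ModularGroup.T ^ N)⁻¹ • w)
  rw [smul_inv_smul] at h
  exact h.symm

theorem jConjSL_T_pow (n : ℕ) : jConjSL (ModularGroup.T ^ n) = (ModularGroup.T ^ n)⁻¹ := by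
  apply Subtype.ext
  rw [jConjSL_coe, Matrix.SpecialLinearGroup.coe_inv, coe_T_pow, Matrix.adjugate_fin_two]
  ext i j
  fin_cases i <;> fin_cases j <;> simp [jConjMat]

theorem conjFun_T_pow_smul {N : ℕ} {f : CuspForm (Gamma0 N) 2} {F : ℍ → ℂ}
    (hF : HasEquivariantPrimitive N f F) (δ : SL(2, ℤ)) (w : ℍ) :
    conjFun F (δ • (ModularGroup.T ^ N • w)) = conjFun F (δ • w) := by
  simp only [conjFun]
  rw [J_smul_smul, J_smul_smul, J_smul_smul, jConjSL_T_pow, primitive_T_pow_inv_smul hF]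

theorem tendsto_conjFun_smul {N : ℕ} {f : CuspForm (Gamma0 N) 2} {F : ℍ → ℂ}
    (hF : HasEquivariantPrimitive N f F) (δ : SL(2, ℤ)) :
    ∃ L : ℂ, Tendsto (fun w : ℍ => conjFun F (δ • w)) atImInfty (𝓝 L) := by
  obtain ⟨L, hL⟩ := hF.2.2.2 (jConjSL δ)
  refine ⟨conj L, ?_⟩
  have h1 : Tendsto (fun w : ℍ => F (jConjSL δ • (J • w))) atImInfty (𝓝 L) :=
    hL.comp tendsto_J_smul
  have h2 := (Complex.continuous_conj.tendsto L).comp h1
  refine h2.congr fun w => ?_
  simp only [comp_apply, conjFun, J_smul_smul]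

/-- Core of the injectivity proof: two equivariant primitives whose periods cancel after
twisting by the involution are both constant. -/
theorem const_of_pair {N : ℕ} [NeZero N] {a b : CuspForm (Gamma0 N) 2} {A B : ℍ → ℂ}
    (hA : HasEquivariantPrimitive N a A) (hB : HasEquivariantPrimitive N b B) (hAd : MDiff A)
    (key : ∀ γ : SL(2, ℤ), γ ∈ Gamma0 N → ∀ z z' : ℍ,
      A (γ • z) - A z + (B (jConjSL γ • z') - B z') = 0) :
    (∃ c : ℂ, ∀ z : ℍ, A z = c) ∧ (∃ c : ℂ, ∀ z : ℍ, B z = c) := by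
  have hBs : MDiff (conjFun B) := mdifferentiable_conjFun hB.1
  have hrel : ∀ γ : SL(2, ℤ), γ ∈ Gamma0 N → ∀ z : ℍ,
      conjFun B (γ • z) - conjFun B z = -conj (A (γ • z) - A z) := by
    intro γ hγ z
    have h := key γ hγ z (J • z)
    simp only [conjFun]
    rw [J_smul_smul, ← map_sub, ← map_neg]
    congr 1
    linear_combination h
  -- first function: `A + B*`
  have h1 : ∃ c : ℂ, ∀ z : ℍ, A z + conjFun B z = c := by
    refine exists_const_of_re_invariant N (G := fun z => A z + conjFun B z) (hAd.add hBs)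
      (fun γ hγ z => ?_) (fun δ w => ?_) (fun δ => ?_)
    · have h := hrel γ hγ z
      have h' : A (γ • z) + conjFun B (γ • z)
          = A z + conjFun B z + ((A (γ • z) - A z) - conj (A (γ • z) - A z)) := by
        linear_combination h
      rw [h', Complex.add_re, Complex.sub_re, Complex.conj_re, sub_self, add_zero]
    · rw [primitive_T_pow_smul hA, conjFun_T_pow_smul hB]
    · obtain ⟨L, hL⟩ := hA.2.2.2 δ
      obtain ⟨M, hM⟩ := tendsto_conjFun_smul hB δ
      exact (hL.add hM).isBigO_one ℝ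
  -- second function: `i (A - B*)`
  have h2 : ∃ c : ℂ, ∀ z : ℍ, I * (A z - conjFun B z) = c := by
    refine exists_const_of_re_invariant N (G := fun z => I * (A z - conjFun B z))
      ((mdifferentiable_const (c := I)).mul (hAd.sub hBs))
      (fun γ hγ z => ?_) (fun δ w => ?_) (fun δ => ?_)
    · have h := hrel γ hγ z
      have h' : I * (A (γ • z) - conjFun B (γ • z))
          = I * (A z - conjFun B z) + I * ((A (γ • z) - A z) + conj (A (γ • z) - A z)) := by
        linear_combination (-I) * h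
      rw [h', Complex.add_re]
      simp
    · rw [primitive_T_pow_smul hA, conjFun_T_pow_smul hB]
    · obtain ⟨L, hL⟩ := hA.2.2.2 δ
      obtain ⟨M, hM⟩ := tendsto_conjFun_smul hB δ
      exact ((hL.sub hM).const_mul I).isBigO_one ℝ
  obtain ⟨c₁, hc₁⟩ := h1
  obtain ⟨c₂, hc₂⟩ := h2
  have hAc : ∀ z : ℍ, A z = (c₁ - I * c₂) / 2 := by
    intro z
    have e1 := hc₁ z
    have e2 := hc₂ z
    have hI : I * I = -1 := Complex.I_mul_I
    rw [eq_div_iff (two_ne_zero' ℂ)]
    linear_combination e1 - I * e2 + (A z - conjFun B z) * hI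
  have hBc : ∀ z : ℍ, conjFun B z = (c₁ + I * c₂) / 2 := by
    intro z
    have e1 := hc₁ z
    have e2 := hc₂ z
    have hI : I * I = -1 := Complex.I_mul_I
    rw [eq_div_iff (two_ne_zero' ℂ)]
    linear_combination e1 + I * e2 + (conjFun B z - A z) * hI
  refine ⟨⟨_, hAc⟩, ⟨conj ((c₁ + I * c₂) / 2), fun z => ?_⟩⟩
  have h := hBc (J • z)
  rw [conjFun_apply, J_smul_J_smul] at h
  rw [← h, Complex.conj_conj]

/-- A cusp form with a constant primitive vanishes. -/
theorem eq_zero_of_const_primitive {N : ℕ} {a : CuspForm (Gamma0 N) 2} {A : ℍ → ℂ}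
    (hA : HasEquivariantPrimitive N a A) (hc : ∃ c : ℂ, ∀ z : ℍ, A z = c) : a = 0 := by
  obtain ⟨c, hc⟩ := hc
  refine DFunLike.ext _ _ fun τ => ?_
  have h1 := hA.1 τ
  have h2 : HasDerivAt (A ∘ ofComplex) 0 (τ : ℂ) := by
    have h3 : A ∘ ofComplex = fun _ => c := by
      funext w
      exact hc _
    rw [h3]
    exact hasDerivAt_const _ _
  exact h1.unique h2

/-- **Injectivity of the Eichler–Shimura period pairing.** -/
theorem periodHomPair_injective (N : ℕ) [NeZero N] : Function.Injective (periodHomPair N) := by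
  rw [injective_iff_map_eq_zero]
  rintro ⟨f, g⟩ hfg
  rw [periodHomPair_apply] at hfg
  obtain ⟨A, hA, hAd⟩ := exists_hasEquivariantPrimitive N (f + g)
  obtain ⟨B, hB, -⟩ := exists_hasEquivariantPrimitive N (f - g)
  have key : ∀ γ : SL(2, ℤ), γ ∈ Gamma0 N → ∀ z z' : ℍ,
      A (γ • z) - A z + (B (jConjSL γ • z') - B z') = 0 := by
    intro γ hγ z z'
    have h := DFunLike.congr_fun hfg (Additive.ofMul (⟨γ, hγ⟩ : Gamma0 N))
    rw [AddMonoidHom.add_apply, charInvolution_apply, toMul_ofMul,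
      periodMap_apply hA ⟨γ, hγ⟩ z, periodMap_apply hB (jConjGamma0 N ⟨γ, hγ⟩) z'] at h
    exact h
  obtain ⟨hAc, hBc⟩ := const_of_pair hA hB hAd key
  have h1 : f + g = 0 := eq_zero_of_const_primitive hA hAc
  have h2 : f - g = 0 := eq_zero_of_const_primitive hB hBc
  have hfg' : f = g := sub_eq_zero.mp h2
  have hf : f = 0 := by
    rw [← hfg', ← two_smul ℂ f] at h1
    exact (smul_eq_zero.mp h1).resolve_left two_ne_zero
  have hg : g = 0 := by rw [← hfg', hf]
  rw [hf, hg]
  rfl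

end Fermat.Agent.S21
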