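import Mathlib
import Fermat.Prelude.Def_ModularCurve_PeriodHomPair
import Fermat.Prelude.Def_ModularCurve_GenusNumerics
import Fermat.Agent.S21.GenusBound
import Fermat.Agent.S21.Parabolic
import Fermat.Agent.S21.Injective

set_option autoImplicit false

/-!
# S21: Eichler–Shimura for `Γ₀(N)` from the dimension formula (S20)

`range (periodHomPair N) ≤ parabolicHoms` (`Parabolic.lean`), `periodHomPair N` is injective
(`Injective.lean`), and `finrank parabolicHoms ≤ 2 * genusFormula N` (`GenusBound.lean`).  Given
`finrank S₂(Γ₀(N)) = genusFormula N`, the range has the dimension of the whole space.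
-/

open scoped MatrixGroups
open ModularCurve ModularCurve.Period CongruenceSubgroup

namespace Fermat.Agent.S21

/-- `S₂(Γ₀(N))` is finite-dimensional (it embeds into the parabolic cohomology). -/
theorem finite_cuspForm_prod (N : ℕ) [NeZero N] :
    Module.Finite ℂ (CuspForm (Gamma0 N) 2 × CuspForm (Gamma0 N) 2) := by
  have := finite_parabolicHoms_Gamma0 N
  let L : (CuspForm (Gamma0 N) 2 × CuspForm (Gamma0 N) 2) →ₗ[ℂ] parabolicHoms ℂ (Gamma0 N) ℂ :=
    LinearMap.codRestrict _ (periodHomPair N)
      (fun p => range_periodHomPair_le N (LinearMap.mem_range_self _ p))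
  refine Module.Finite.of_injective L ?_
  intro p q hpq
  apply periodHomPair_injective N
  exact congrArg Subtype.val hpq

theorem finite_cuspForm (N : ℕ) [NeZero N] : Module.Finite ℂ (CuspForm (Gamma0 N) 2) := by
  have := finite_cuspForm_prod N
  exact Module.Finite.of_injective
    (LinearMap.inl ℂ (CuspForm (Gamma0 N) 2) (CuspForm (Gamma0 N) 2)) LinearMap.inl_injective

/-- Eichler–Shimura for `Γ₀(N)`, given the dimension formula for `S₂(Γ₀(N))`. -/
theorem eichlerShimura_of (N : ℕ) [NeZero N]
    (hS20 : (Module.finrank ℂ (CuspForm (Gamma0 N) 2) : ℚ) = ModularCurve.genusFormula N) :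
    Function.Injective (ModularCurve.periodHomPair N)
      ∧ LinearMap.range (ModularCurve.periodHomPair N)
          = ModularCurve.Period.parabolicHoms ℂ (CongruenceSubgroup.Gamma0 N) ℂ := by
  have hinj := periodHomPair_injective N
  refine ⟨hinj, ?_⟩
  have := finite_parabolicHoms_Gamma0 N
  have := finite_cuspForm N
  refine Submodule.eq_of_le_of_finrank_le (range_periodHomPair_le N) ?_
  rw [LinearMap.finrank_range_of_inj hinj, Module.finrank_prod]
  have h1 := finrank_parabolicHoms_le N
  rw [← hS20] at h1
  have h2 : ((Module.finrank ℂ (parabolicHoms ℂ (Gamma0 N) ℂ) : ℕ) : ℚ)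
      ≤ ((Module.finrank ℂ (CuspForm (Gamma0 N) 2) + Module.finrank ℂ (CuspForm (Gamma0 N) 2) : ℕ) : ℚ) := by
    push_cast
    linarith
  exact_mod_cast h2

end Fermat.Agent.S21
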