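import Mathlib

/-!
# Abstract crossed-map dimension count  (S21, piece D2-LA)

Pure finite-dimensional linear algebra (Mathlib only).  A group `G` acts on a finite set `X`;
`s`, `t ∈ G` act with `s² = 1`, `(s t)³ = 1` and "transitively".  A linear family of crossed maps
(given by its values `A` at `s` and `B` at `s t`), with vanishing `t`-orbit sums and injective
modulo coboundaries, has dimension at most `2 + μ/6 − ν₂/2 − 2ν₃/3 − c`
(`μ = |X|`, `ν₂ = |Fix s|`, `ν₃ = |Fix (s t)|`, `c` = number of `⟨t⟩`-orbits).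

Main statement: `crossed_count`.

Proof: the space `R` of pairs `(A v + (u∘s − u), B v + (u∘st − u))` and the space `U` of pairs
`(p − w, q + w)` (`p`, `q`, `w` invariant under `s`, `s t`, `t`) are orthogonal for the dot
product on `(X → ℂ)²`, so `dim R + dim U ≤ 2μ`; both parametrisations have kernel of dimension
at most one (constants), and the dimensions of the invariants are computed by traces of
projections.
-/

set_option autoImplicit false

namespace Fermat.Agent.S21

open Module

/-- If two subspaces are orthogonal for an injective pairing `E → E*`, their dimensions add up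
to at most `dim E`. -/
theorem crossedCount_orth {E : Type*} [AddCommGroup E] [Module ℂ E] [FiniteDimensional ℂ E]
    (P : E →ₗ[ℂ] Module.Dual ℂ E) (hP : Function.Injective P) (R U : Submodule ℂ E)
    (h : ∀ r ∈ R, ∀ u ∈ U, P u r = 0) :
    finrank ℂ R + finrank ℂ U ≤ finrank ℂ E := by
  have h1 := Subspace.finrank_add_finrank_dualAnnihilator_eq R
  have h2 : finrank ℂ U ≤ finrank ℂ R.dualAnnihilator := by
    let g : U →ₗ[ℂ] R.dualAnnihilator :=
      (P.domRestrict U).codRestrict R.dualAnnihilator (fun u => by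
        rw [Submodule.mem_dualAnnihilator]
        intro r hr
        exact h r hr u u.2)
    refine LinearMap.finrank_le_finrank_of_injective (f := g) ?_
    intro u u' huu'
    have : P u = P u' := congrArg Subtype.val huu'
    exact Subtype.ext (hP this)
  omega

/-- A space all of whose elements are "constant functions" (via an injective-on-zero linear map
into functions on a finite type) has dimension at most one. -/
theorem crossedCount_finrank_le_one {X : Type*} [Fintype X] {E : Type*} [AddCommGroup E]
    [Module ℂ E] (ℓ : E →ₗ[ℂ] (X → ℂ)) (hconst : ∀ e x y, ℓ e x = ℓ e y)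
    (hzero : ∀ e, ℓ e = 0 → e = 0) : finrank ℂ E ≤ 1 := by
  let S : E →ₗ[ℂ] ℂ :=
    { toFun := fun e => ∑ x, ℓ e x
      map_add' := by intro a b; simp [Finset.sum_add_distrib]
      map_smul' := by intro c a; simp [Finset.mul_sum] }
  have hS : Function.Injective S := by
    rw [← LinearMap.ker_eq_bot, LinearMap.ker_eq_bot']
    intro e he
    apply hzero
    funext x
    have he' : ∑ y, ℓ e y = 0 := he
    have : ∑ y : X, ℓ e y = (Fintype.card X : ℂ) * ℓ e x := by
      rw [Finset.sum_congr rfl (fun y _ => hconst e y x)]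
      simp
    rw [this] at he'
    have hX : (Fintype.card X : ℂ) ≠ 0 := by
      have : 0 < Fintype.card X := Fintype.card_pos_iff.2 ⟨x⟩
      exact_mod_cast this.ne'
    simpa [hX] using he'
  have := LinearMap.finrank_le_finrank_of_injective hS
  simpa using this

section Pair

variable {X : Type*} [Fintype X]

/-- The dot-product pairing on pairs of functions. -/
noncomputable def crossedPair :
    ((X → ℂ) × (X → ℂ)) →ₗ[ℂ] Module.Dual ℂ ((X → ℂ) × (X → ℂ)) :=
  LinearMap.mk₂ ℂ (fun u r => ∑ x, u.1 x * r.1 x + ∑ x, u.2 x * r.2 x)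
    (by intro a b r; simp only [Prod.fst_add, Prod.snd_add, Pi.add_apply, add_mul,
          Finset.sum_add_distrib]; ring)
    (by intro c a r; simp only [Prod.smul_fst, Prod.smul_snd, Pi.smul_apply, smul_eq_mul,
          Finset.mul_sum, mul_add, mul_assoc])
    (by intro a r r'; simp only [Prod.fst_add, Prod.snd_add, Pi.add_apply, mul_add,
          Finset.sum_add_distrib]; ring)
    (by intro c a r; simp only [Prod.smul_fst, Prod.smul_snd, Pi.smul_apply, smul_eq_mul,
          Finset.mul_sum, mul_add, mul_left_comm])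

theorem crossedPair_apply (u r : (X → ℂ) × (X → ℂ)) :
    crossedPair u r = ∑ x, u.1 x * r.1 x + ∑ x, u.2 x * r.2 x := rfl

theorem crossedPair_injective : Function.Injective (crossedPair (X := X)) := by
  classical
  rw [← LinearMap.ker_eq_bot, LinearMap.ker_eq_bot']
  intro u hu
  have h1 : ∀ x, u.1 x = 0 := by
    intro x
    have := congrArg (fun φ => φ ((Pi.single x 1 : X → ℂ), (0 : X → ℂ))) hu
    simpa [crossedPair_apply, Pi.single_apply] using this
  have h2 : ∀ x, u.2 x = 0 := by
    intro x
    have := congrArg (fun φ => φ ((0 : X → ℂ), (Pi.single x 1 : X → ℂ))) hu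
    simpa [crossedPair_apply, Pi.single_apply] using this
  exact Prod.ext (funext h1) (funext h2)

end Pair

section Pair

variable {X : Type*} [Fintype X]

/-- The trace of a "substitution" operator `u ↦ u ∘ f` is the number of fixed points of `f`. -/
theorem crossedCount_trace_funLeft (f : X → X) :
    LinearMap.trace ℂ (X → ℂ) (LinearMap.funLeft ℂ ℂ f) = (Nat.card {x : X // f x = x} : ℂ) := by
  classical
  rw [LinearMap.trace_eq_matrix_trace ℂ (Pi.basisFun ℂ X), LinearMap.toMatrix_eq_toMatrix',
    Matrix.trace]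
  simp only [Matrix.diag_apply, LinearMap.toMatrix'_apply, LinearMap.funLeft_apply,
    Pi.single_apply]
  rw [Finset.sum_boole, Nat.card_eq_fintype_card, Fintype.card_subtype]

end Pair

section Inv

variable {G : Type*} [Group G] {X : Type*} [MulAction G X]

/-- Functions on `X` invariant under `g`. -/
def crossedInv (g : G) : Submodule ℂ (X → ℂ) where
  carrier := {u | ∀ x, u (g • x) = u x}
  add_mem' := by intro a b ha hb x; simp only [Pi.add_apply, ha x, hb x]
  zero_mem' := by intro x; rfl
  smul_mem' := by intro c a ha x; simp only [Pi.smul_apply, ha x]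

theorem mem_crossedInv (g : G) (u : X → ℂ) : u ∈ crossedInv g ↔ ∀ x, u (g • x) = u x := Iff.rfl

/-- For an involution, `|X| + |Fix| = 2 · dim (invariant functions)`. -/
theorem crossedCount_inv_two [Fintype X] (s : G) (hs : ∀ x : X, s • s • x = x) :
    Fintype.card X + Nat.card (MulAction.fixedBy X s) = 2 * finrank ℂ (crossedInv (X := X) s) := by
  classical
  set σ : (X → ℂ) →ₗ[ℂ] (X → ℂ) := LinearMap.funLeft ℂ ℂ (fun x : X => s • x) with hσ
  set p : (X → ℂ) →ₗ[ℂ] (X → ℂ) := (1 / 2 : ℂ) • (LinearMap.id + σ) with hp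
  have hproj : LinearMap.IsProj (crossedInv (X := X) s) p := by
    refine ⟨fun u => ?_, fun u hu => ?_⟩
    · rw [mem_crossedInv]
      intro x
      simp only [hp, hσ, LinearMap.smul_apply, LinearMap.add_apply, LinearMap.id_apply,
        LinearMap.funLeft_apply, Pi.smul_apply, Pi.add_apply, hs x]
      ring
    · funext x
      simp only [hp, hσ, LinearMap.smul_apply, LinearMap.add_apply, LinearMap.id_apply,
        LinearMap.funLeft_apply, Pi.smul_apply, Pi.add_apply,
        (mem_crossedInv s u).1 hu x, smul_eq_mul]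
      ring
  have htr := hproj.trace
  rw [hp, map_smul, map_add, hσ, crossedCount_trace_funLeft, LinearMap.trace_id,
    Module.finrank_fintype_fun_eq_card] at htr
  change (1 / 2 : ℂ) • ((Fintype.card X : ℂ) + (Nat.card (MulAction.fixedBy X s) : ℂ)) = _ at htr
  have h2 : ((Fintype.card X + Nat.card (MulAction.fixedBy X s) : ℕ) : ℂ)
      = ((2 * finrank ℂ (crossedInv (X := X) s) : ℕ) : ℂ) := by
    push_cast
    rw [← htr, smul_eq_mul]
    ring
  exact_mod_cast h2

/-- For a permutation of order dividing three, `|X| + 2 |Fix| = 3 · dim (invariant functions)`. -/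
theorem crossedCount_inv_three [Fintype X] (g : G) (hg : ∀ x : X, g • g • g • x = x) :
    Fintype.card X + 2 * Nat.card (MulAction.fixedBy X g)
      = 3 * finrank ℂ (crossedInv (X := X) g) := by
  classical
  set σ : (X → ℂ) →ₗ[ℂ] (X → ℂ) := LinearMap.funLeft ℂ ℂ (fun x : X => g • x) with hσ
  set σ2 : (X → ℂ) →ₗ[ℂ] (X → ℂ) := LinearMap.funLeft ℂ ℂ (fun x : X => g • g • x) with hσ2
  set p : (X → ℂ) →ₗ[ℂ] (X → ℂ) := (1 / 3 : ℂ) • (LinearMap.id + σ + σ2) with hp
  have hproj : LinearMap.IsProj (crossedInv (X := X) g) p := by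
    refine ⟨fun u => ?_, fun u hu => ?_⟩
    · rw [mem_crossedInv]
      intro x
      simp only [hp, hσ, hσ2, LinearMap.smul_apply, LinearMap.add_apply, LinearMap.id_apply,
        LinearMap.funLeft_apply, Pi.smul_apply, Pi.add_apply, hg x]
      ring
    · funext x
      simp only [hp, hσ, hσ2, LinearMap.smul_apply, LinearMap.add_apply, LinearMap.id_apply,
        LinearMap.funLeft_apply, Pi.smul_apply, Pi.add_apply,
        (mem_crossedInv g u).1 hu _, smul_eq_mul]
      ring
  have hfix : Nat.card {x : X // g • g • x = x} = Nat.card (MulAction.fixedBy X g) := by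
    refine Nat.card_congr (Equiv.subtypeEquivRight fun x => ?_)
    rw [MulAction.mem_fixedBy]
    constructor
    · intro h
      have h3 := hg x
      rw [h] at h3
      exact h3
    · intro h
      rw [h, h]
  have htr := hproj.trace
  rw [hp, map_smul, map_add, map_add, hσ, hσ2, crossedCount_trace_funLeft,
    crossedCount_trace_funLeft, hfix, LinearMap.trace_id,
    Module.finrank_fintype_fun_eq_card] at htr
  change (1 / 3 : ℂ) • ((Fintype.card X : ℂ) + (Nat.card (MulAction.fixedBy X g) : ℂ)
    + (Nat.card (MulAction.fixedBy X g) : ℂ)) = _ at htr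
  have h2 : ((Fintype.card X + 2 * Nat.card (MulAction.fixedBy X g) : ℕ) : ℂ)
      = ((3 * finrank ℂ (crossedInv (X := X) g) : ℕ) : ℂ) := by
    push_cast
    rw [← htr, smul_eq_mul]
    ring
  exact_mod_cast h2

/-- The number of `⟨t⟩`-orbits is at most the dimension of the `t`-invariant functions. -/
theorem crossedCount_orbits_le [Finite X] (t : G) :
    Nat.card (MulAction.orbitRel.Quotient (Subgroup.zpowers t) X)
      ≤ finrank ℂ (crossedInv (X := X) t) := by
  classical
  have := Fintype.ofFinite X
  have : Fintype (MulAction.orbitRel.Quotient (Subgroup.zpowers t) X) := Fintype.ofFinite _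
  let f : (MulAction.orbitRel.Quotient (Subgroup.zpowers t) X → ℂ) →ₗ[ℂ] crossedInv (X := X) t :=
    { toFun := fun l => ⟨fun x => l (Quotient.mk'' x), by
        rw [mem_crossedInv]
        intro x
        congr 1
        exact Quotient.sound' (MulAction.mem_orbit x
          (⟨t, Subgroup.mem_zpowers t⟩ : Subgroup.zpowers t))⟩
      map_add' := by intro a b; rfl
      map_smul' := by intro c a; rfl }
  have hf : Function.Injective f := by
    intro l l' h
    funext q
    induction q using Quotient.inductionOn' with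
    | h x => exact congrFun (congrArg Subtype.val h) x
  have := LinearMap.finrank_le_finrank_of_injective hf
  rwa [Module.finrank_fintype_fun_eq_card, ← Nat.card_eq_fintype_card] at this

end Inv


section Main

/-- **Abstract crossed-map dimension count.**  `G` acts on the finite set `X`; `s`, `t ∈ G` with
`s² = 1` and `(s t)³ = 1` on `X`, acting "transitively" (functions invariant under `s` and `s t`
are constant).  `A`, `B` are the two components (values at `s` and at `s t`) of a linear family
of crossed maps `G × X → ℂ`, whose `t`-orbit sums vanish (`hpar`) and which is injective modulo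
coboundaries (`hinj`).  Then the family has dimension at most
`2 + μ/6 − ν₂/2 − 2ν₃/3 − c`. -/
theorem crossed_count {G : Type*} [Group G] {X : Type*} [MulAction G X] [Finite X] (s t : G)
    (hs : ∀ x : X, s • s • x = x) (hst : ∀ x : X, (s * t) • (s * t) • (s * t) • x = x)
    (htrans : ∀ u : X → ℂ, (∀ x, u (s • x) = u x) → (∀ x, u ((s * t) • x) = u x) →
      ∀ x y, u x = u y)
    {V : Type*} [AddCommGroup V] [Module ℂ V] (A B : V →ₗ[ℂ] (X → ℂ))
    (hA : ∀ v x, A v (s • x) = -A v x)
    (hB : ∀ v x, B v x + B v ((s * t) • x) + B v ((s * t) • (s * t) • x) = 0)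
    (hpar : ∀ v (x : X) (n : ℕ), t ^ n • x = x →
      ∑ i ∈ Finset.range n, (B v (t ^ i • x) - A v (t ^ (i + 1) • x)) = 0)
    (hinj : ∀ v (u : X → ℂ), (∀ x, A v x = u (s • x) - u x) →
      (∀ x, B v x = u ((s * t) • x) - u x) → v = 0) :
    Module.Finite ℂ V ∧
      6 * Module.finrank ℂ V + 3 * Nat.card (MulAction.fixedBy X s)
        + 4 * Nat.card (MulAction.fixedBy X (s * t))
        + 6 * Nat.card (MulAction.orbitRel.Quotient (Subgroup.zpowers t) X) ≤ Nat.card X + 12 := by
  classical
  let _ : Fintype X := Fintype.ofFinite X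
  -- Step 1: `V` is finite-dimensional
  have hΦ : Function.Injective (A.prod B) := by
    rw [← LinearMap.ker_eq_bot, LinearMap.ker_eq_bot']
    intro v hv
    have h1 : A v = 0 := congrArg Prod.fst hv
    have h2 : B v = 0 := congrArg Prod.snd hv
    exact hinj v 0 (fun x => by simp [h1]) (fun x => by simp [h2])
  have hfin : Module.Finite ℂ V := Module.Finite.of_injective (A.prod B) hΦ
  refine ⟨hfin, ?_⟩
  -- reindexing of sums along the action
  have hre : ∀ (g : G) (f : X → ℂ), ∑ x, f (g • x) = ∑ x, f x := fun g f =>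
    (MulAction.bijective g).sum_comp f
  -- the map `Ψ (v, u) = (A v, B v) + d u`
  set dσ : (X → ℂ) →ₗ[ℂ] (X → ℂ) :=
    LinearMap.funLeft ℂ ℂ (fun x : X => s • x) - LinearMap.id with hdσ
  set dυ : (X → ℂ) →ₗ[ℂ] (X → ℂ) :=
    LinearMap.funLeft ℂ ℂ (fun x : X => (s * t) • x) - LinearMap.id with hdυ
  set Ψ : (V × (X → ℂ)) →ₗ[ℂ] ((X → ℂ) × (X → ℂ)) := (A.prod B).coprod (dσ.prod dυ) with hΨ
  have hΨ1 : ∀ v u x, (Ψ (v, u)).1 x = A v x + (u (s • x) - u x) := by
    intro v u x
    simp [hΨ, hdσ, LinearMap.funLeft_apply]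
  have hΨ2 : ∀ v u x, (Ψ (v, u)).2 x = B v x + (u ((s * t) • x) - u x) := by
    intro v u x
    simp [hΨ, hdυ, LinearMap.funLeft_apply]
  have hker : ∀ v u, Ψ (v, u) = 0 → v = 0 ∧ ∀ x y, u x = u y := by
    intro v u hk
    have e1 : ∀ x, A v x + (u (s • x) - u x) = 0 := fun x => by rw [← hΨ1, hk]; rfl
    have e2 : ∀ x, B v x + (u ((s * t) • x) - u x) = 0 := fun x => by rw [← hΨ2, hk]; rfl
    have hv : v = 0 := hinj v (-u)
      (fun x => by simp only [Pi.neg_apply]; linear_combination e1 x)
      (fun x => by simp only [Pi.neg_apply]; linear_combination e2 x)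
    subst hv
    refine ⟨rfl, htrans u (fun x => ?_) (fun x => ?_)⟩
    · have := e1 x
      simp only [map_zero, Pi.zero_apply, zero_add] at this
      linear_combination this
    · have := e2 x
      simp only [map_zero, Pi.zero_apply, zero_add] at this
      linear_combination this
  have hkerΨ : finrank ℂ (LinearMap.ker Ψ) ≤ 1 := by
    refine crossedCount_finrank_le_one
      ((LinearMap.snd ℂ V (X → ℂ)).comp (LinearMap.ker Ψ).subtype) ?_ ?_
    · rintro ⟨⟨v, u⟩, hk⟩ x y
      exact (hker v u (LinearMap.mem_ker.1 hk)).2 x y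
    · rintro ⟨⟨v, u⟩, hk⟩ h0
      have hu : u = 0 := h0
      have hv := (hker v u (LinearMap.mem_ker.1 hk)).1
      subst hu hv
      rfl
  -- the map `Λ (p, q, w) = (p - w, q + w)` on invariant functions
  set Λ : ((crossedInv (X := X) s × crossedInv (X := X) (s * t)) × crossedInv (X := X) t)
      →ₗ[ℂ] ((X → ℂ) × (X → ℂ)) :=
    ((crossedInv (X := X) s).subtype.comp ((LinearMap.fst ℂ _ _).comp (LinearMap.fst ℂ _ _))
        - (crossedInv (X := X) t).subtype.comp (LinearMap.snd ℂ _ _)).prod
      ((crossedInv (X := X) (s * t)).subtype.comp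
          ((LinearMap.snd ℂ _ _).comp (LinearMap.fst ℂ _ _))
        + (crossedInv (X := X) t).subtype.comp (LinearMap.snd ℂ _ _)) with hΛ
  have hΛ1 : ∀ (p : crossedInv (X := X) s) (q : crossedInv (X := X) (s * t))
      (w : crossedInv (X := X) t) (x : X),
      (Λ ((p, q), w)).1 x = (p : X → ℂ) x - (w : X → ℂ) x := fun p q w x => rfl
  have hΛ2 : ∀ (p : crossedInv (X := X) s) (q : crossedInv (X := X) (s * t))
      (w : crossedInv (X := X) t) (x : X),
      (Λ ((p, q), w)).2 x = (q : X → ℂ) x + (w : X → ℂ) x := fun p q w x => rfl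
  have hkerΛ : finrank ℂ (LinearMap.ker Λ) ≤ 1 := by
    let ℓ : LinearMap.ker Λ →ₗ[ℂ] (X → ℂ) :=
      (crossedInv (X := X) t).subtype.comp ((LinearMap.snd ℂ _ _).comp (LinearMap.ker Λ).subtype)
    refine @crossedCount_finrank_le_one X _ (LinearMap.ker Λ) (Submodule.addCommGroup _) _ ℓ ?_ ?_
    · rintro ⟨⟨⟨p, q⟩, w⟩, hk⟩ x y
      rw [LinearMap.mem_ker] at hk
      have e1 : ∀ x, (p : X → ℂ) x - (w : X → ℂ) x = 0 := fun x => by rw [← hΛ1 p q w, hk]; rfl
      have e2 : ∀ x, (q : X → ℂ) x + (w : X → ℂ) x = 0 := fun x => by rw [← hΛ2 p q w, hk]; rfl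
      refine htrans (w : X → ℂ) (fun x => ?_) (fun x => ?_) x y
      · have hp := (mem_crossedInv s _).1 p.2 x
        linear_combination hp - e1 (s • x) + e1 x
      · have hq := (mem_crossedInv (s * t) _).1 q.2 x
        linear_combination -hq + e2 ((s * t) • x) - e2 x
    · rintro ⟨⟨⟨p, q⟩, w⟩, hk⟩ h0
      rw [LinearMap.mem_ker] at hk
      have hw : (w : X → ℂ) = 0 := h0
      have e1 : ∀ x, (p : X → ℂ) x - (w : X → ℂ) x = 0 := fun x => by rw [← hΛ1 p q w, hk]; rfl
      have e2 : ∀ x, (q : X → ℂ) x + (w : X → ℂ) x = 0 := fun x => by rw [← hΛ2 p q w, hk]; rfl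
      have hp : p = 0 := Subtype.ext (funext fun x => by
        have := e1 x; rw [hw] at this; simpa using this)
      have hq : q = 0 := Subtype.ext (funext fun x => by
        have := e2 x; rw [hw] at this; simpa using this)
      have hw' : w = 0 := Subtype.ext hw
      subst hp hq hw'
      rfl
  -- a common period of `t` on `X`
  obtain ⟨N, hN0, hN⟩ : ∃ N : ℕ, 0 < N ∧ ∀ x : X, t ^ N • x = x := by
    refine ⟨orderOf (MulAction.toPermHom G X t), orderOf_pos _, fun x => ?_⟩
    have h := pow_orderOf_eq_one (MulAction.toPermHom G X t)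
    rw [← map_pow] at h
    have h' := congrArg (fun e : Equiv.Perm X => e x) h
    simpa using h'
  -- orthogonality of the two ranges
  have horth : ∀ r ∈ LinearMap.range Ψ, ∀ u ∈ LinearMap.range Λ, crossedPair u r = 0 := by
    rintro _ ⟨⟨v, u⟩, rfl⟩ _ ⟨⟨⟨p, q⟩, w⟩, rfl⟩
    rw [crossedPair_apply]
    simp only [hΨ1, hΨ2, hΛ1, hΛ2]
    have hp : ∀ x, (p : X → ℂ) (s • x) = (p : X → ℂ) x := (mem_crossedInv s _).1 p.2
    have hq : ∀ x, (q : X → ℂ) ((s * t) • x) = (q : X → ℂ) x := (mem_crossedInv (s * t) _).1 q.2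
    have hw : ∀ x, (w : X → ℂ) (t • x) = (w : X → ℂ) x := (mem_crossedInv t _).1 w.2
    have hwpow : ∀ (i : ℕ) (x : X), (w : X → ℂ) (t ^ i • x) = (w : X → ℂ) x := by
      intro i
      induction i with
      | zero => intro x; simp
      | succ i ih => intro x; rw [pow_succ, mul_smul, ih, hw]
    have F1 : ∑ x, (p : X → ℂ) x * A v x = 0 := by
      have h := hre s (fun x => (p : X → ℂ) x * A v x)
      simp only [hA, hp, mul_neg, Finset.sum_neg_distrib] at h
      linear_combination (-1 / 2 : ℂ) * h
    have F2 : ∑ x, (p : X → ℂ) x * u (s • x) = ∑ x, (p : X → ℂ) x * u x := by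
      have h := hre s (fun x => (p : X → ℂ) x * u x)
      simpa only [hp] using h
    have F3 : ∑ x, (q : X → ℂ) x * B v x = 0 := by
      have h1 := hre (s * t) (fun x => (q : X → ℂ) x * B v x)
      have h2 := hre (s * t) (fun x => (q : X → ℂ) x * B v ((s * t) • x))
      simp only [hq] at h1 h2
      have h3 : ∑ x, (q : X → ℂ) x * (B v x + B v ((s * t) • x) + B v ((s * t) • (s * t) • x))
          = 0 := Finset.sum_eq_zero fun x _ => by rw [hB, mul_zero]
      simp only [mul_add, Finset.sum_add_distrib] at h3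
      linear_combination (1 / 3 : ℂ) * h3 - (2 / 3 : ℂ) * h1 - (1 / 3 : ℂ) * h2
    have F4 : ∑ x, (q : X → ℂ) x * u ((s * t) • x) = ∑ x, (q : X → ℂ) x * u x := by
      have h := hre (s * t) (fun x => (q : X → ℂ) x * u x)
      simpa only [hq] using h
    have F5 : ∑ x, (w : X → ℂ) x * u ((s * t) • x) = ∑ x, (w : X → ℂ) x * u (s • x) := by
      have h := hre t (fun x => (w : X → ℂ) x * u (s • x))
      simpa only [hw, ← mul_smul] using h
    have F6 : ∑ x, (w : X → ℂ) x * B v x = ∑ x, (w : X → ℂ) x * A v x := by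
      have hi : ∀ i : ℕ, ∑ x, (w : X → ℂ) x * (B v (t ^ i • x) - A v (t ^ (i + 1) • x))
          = ∑ x, (w : X → ℂ) x * B v x - ∑ x, (w : X → ℂ) x * A v x := by
        intro i
        have h1 := hre (t ^ i) (fun x => (w : X → ℂ) x * B v x)
        have h2 := hre (t ^ (i + 1)) (fun x => (w : X → ℂ) x * A v x)
        simp only [hwpow] at h1 h2
        simp only [mul_sub, Finset.sum_sub_distrib, h1, h2]
      have htot : ∑ x, (w : X → ℂ) x *
          ∑ i ∈ Finset.range N, (B v (t ^ i • x) - A v (t ^ (i + 1) • x)) = 0 :=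
        Finset.sum_eq_zero fun x _ => by rw [hpar v x N (hN x), mul_zero]
      simp only [Finset.mul_sum] at htot
      rw [Finset.sum_comm] at htot
      rw [Finset.sum_congr rfl (fun i _ => hi i), Finset.sum_const, Finset.card_range,
        nsmul_eq_mul] at htot
      have hN' : (N : ℂ) ≠ 0 := by exact_mod_cast hN0.ne'
      have := (mul_eq_zero.1 htot).resolve_left hN'
      linear_combination this
    have e1 : ∀ x, ((p : X → ℂ) x - (w : X → ℂ) x) * (A v x + (u (s • x) - u x))
        = (p : X → ℂ) x * A v x + (p : X → ℂ) x * u (s • x) - (p : X → ℂ) x * u x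
          - (w : X → ℂ) x * A v x - (w : X → ℂ) x * u (s • x) + (w : X → ℂ) x * u x :=
      fun x => by ring
    have e2 : ∀ x, ((q : X → ℂ) x + (w : X → ℂ) x) * (B v x + (u ((s * t) • x) - u x))
        = (q : X → ℂ) x * B v x + (q : X → ℂ) x * u ((s * t) • x) - (q : X → ℂ) x * u x
          + (w : X → ℂ) x * B v x + (w : X → ℂ) x * u ((s * t) • x) - (w : X → ℂ) x * u x :=
      fun x => by ring
    simp only [e1, e2, Finset.sum_add_distrib, Finset.sum_sub_distrib]
    linear_combination F1 + F2 + F3 + F4 + F5 + F6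
  have hmain := crossedCount_orth crossedPair crossedPair_injective (LinearMap.range Ψ)
    (LinearMap.range Λ) horth
  -- rank–nullity
  have hrnΨ := LinearMap.finrank_range_add_finrank_ker Ψ
  have hrnΛ := LinearMap.finrank_range_add_finrank_ker Λ
  rw [Module.finrank_prod, Module.finrank_fintype_fun_eq_card] at hrnΨ hmain
  rw [Module.finrank_prod, Module.finrank_prod] at hrnΛ
  have h2 := crossedCount_inv_two (X := X) s hs
  have h3 := crossedCount_inv_three (X := X) (s * t) hst
  have hτ := crossedCount_orbits_le (X := X) t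
  have hX : Nat.card X = Fintype.card X := Nat.card_eq_fintype_card
  omega

end Main

end Fermat.Agent.S21
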